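import Fermat.Agent.PSEMI.Series.Frob

/-!
# The norm from `q ^ (1 / p)` down to `q`

`nrm p s` is the series whose value at `q ^ p` is the product of the `s (ζ ^ j q)`. It is congruent
to the Frobenius twist of `s`, and it contracts series close to `1`.
-/

set_option autoImplicit false

noncomputable section

namespace FermatAgent.PSEMI

open FermatAgent.ES FermatAgent.Curve.Red
open FermatAgent.BAD (expandL expandL_coeff_mul expandL_coeff_of_not_dvd)

variable {p : ℕ} [hp : Fact p.Prime] {P : CPlace p} {K : Coeffs P}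

/-- `ζ_p ^ p = 1`. -/
theorem zetaC_pow_self : zetaC p ^ p = 1 := (zetaC_isPrimitiveRoot p).pow_eq_one

theorem zetaC_p_ne_zero : zetaC p ≠ 0 :=
  (zetaC_isPrimitiveRoot p).ne_zero (NeZero.ne p)

theorem twistSer_add' (c : ℂ) (s t : LaurentSeries ℂ) :
    twistSer c (s + t) = twistSer c s + twistSer c t := by
  ext n; simp [add_mul]

theorem twistSer_C (c a : ℂ) : twistSer c (HahnSeries.C a) = HahnSeries.C a := by
  ext n
  rcases eq_or_ne n 0 with rfl | hn <;> simp [*]

theorem twistSer_twistSer (c d : ℂ) (s : LaurentSeries ℂ) :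
    twistSer c (twistSer d s) = twistSer (d * c) s := by
  ext n; simp [mul_zpow, mul_assoc]

theorem twistSer_prod {ι : Type*} {c : ℂ} (hc : c ≠ 0) (A : Finset ι) (f : ι → LaurentSeries ℂ) :
    twistSer c (∏ i ∈ A, f i) = ∏ i ∈ A, twistSer c (f i) := by
  classical
  induction A using Finset.induction_on with
  | empty => simp [twistSer_one]
  | insert a A ha ih => rw [Finset.prod_insert ha, Finset.prod_insert ha, BAD.twistSer_mul c hc, ih]

/-- The conjugates of a series. -/
abbrev conjSer (p : ℕ) (s : LaurentSeries ℂ) (j : ZMod p) : LaurentSeries ℂ :=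
  twistSer (zetaC p ^ j.val) s

theorem conjSer_succ (s : LaurentSeries ℂ) (j : ZMod p) :
    twistSer (zetaC p) (conjSer p s j) = conjSer p s (j + 1) := by
  rw [conjSer, conjSer, twistSer_twistSer, ← pow_succ, ZMod.val_add, ZMod.val_one,
    ← pow_eq_pow_mod _ zetaC_pow_self]

/-- The norm of a series. -/
def nrm (p : ℕ) [NeZero p] (s : LaurentSeries ℂ) : LaurentSeries ℂ :=
  BAD.contractL p (∏ j : ZMod p, conjSer p s j)

/-- The norm, expanded by `p`, is the product of the conjugates. -/
theorem expandL_nrm (s : LaurentSeries ℂ) : expandL p (nrm p s) = ∏ j : ZMod p, conjSer p s j := by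
  refine BAD.expandL_contractL p fun m hm => ?_
  set Q := ∏ j : ZMod p, conjSer p s j with hQ
  have h : twistSer (zetaC p) Q = Q := by
    rw [hQ, twistSer_prod zetaC_p_ne_zero]
    simp only [conjSer_succ]
    exact Fintype.prod_equiv (Equiv.addRight (1 : ZMod p)) _ _ fun j => rfl
  have h1 := congrArg (fun u => u.coeff m) h
  simp only [coeff_twistSer] at h1
  by_contra h0
  refine hm ?_
  have h2 : zetaC p ^ m = 1 := mul_left_cancel₀ h0 (h1.trans (mul_one _).symm)
  exact ((zetaC_isPrimitiveRoot p).zpow_eq_one_iff_dvd m).mp h2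

/-- The coefficients of the norm are those of the product of the conjugates at multiples of `p`. -/
theorem coeff_nrm (s : LaurentSeries ℂ) (k : ℤ) :
    (nrm p s).coeff k = (∏ j : ZMod p, conjSer p s j).coeff ((p : ℤ) * k) := rfl

/-- The norm is multiplicative. -/
theorem nrm_mul (s t : LaurentSeries ℂ) : nrm p (s * t) = nrm p s * nrm p t := by
  refine BAD.expandL_injective p ?_
  rw [map_mul, expandL_nrm, expandL_nrm, expandL_nrm, ← Finset.prod_mul_distrib]
  exact Finset.prod_congr rfl fun j _ => BAD.twistSer_mul _ (pow_ne_zero _ zetaC_p_ne_zero) s t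

theorem nrm_one : nrm p 1 = 1 := by
  refine BAD.expandL_injective p ?_
  rw [map_one, expandL_nrm]
  exact Finset.prod_eq_one fun j _ => twistSer_one _

/-- The norm of a power is the power of the norm. -/
theorem nrm_pow (s : LaurentSeries ℂ) (n : ℕ) : nrm p (s ^ n) = nrm p s ^ n := by
  induction n with
  | zero => simpa using nrm_one
  | succ n ih => rw [pow_succ, pow_succ, nrm_mul, ih]

/-- The norm of an expanded series is its `p`-th power. -/
theorem nrm_expandL (s : LaurentSeries ℂ) : nrm p (expandL p s) = s ^ p := by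
  refine BAD.expandL_injective p ?_
  rw [expandL_nrm, map_pow, Finset.prod_congr rfl fun j _ => ?_, Finset.prod_const,
    Finset.card_univ, ZMod.card]
  exact BAD.twistSer_expandL (by rw [← pow_mul, mul_comm, pow_mul, zetaC_pow_self, one_pow]) s

/-- The norm of a constant is its `p`-th power. -/
theorem nrm_C (a : ℂ) : nrm p (HahnSeries.C a) = HahnSeries.C (a ^ p) := by
  have h : expandL p (HahnSeries.C a : LaurentSeries ℂ) = HahnSeries.C a := by
    rw [HahnSeries.C_apply, BAD.expandL_single, mul_zero]
  rw [← h, nrm_expandL, map_pow]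


/-- `ζ_p` is integral. -/
theorem zetaC_mem_ring : zetaC p ∈ P.ring :=
  (P.abv_eq_one_of_pow_eq_one hp.out.ne_zero zetaC_pow_self).le

omit hp in
/-- Contracting preserves series over a ring. -/
theorem serIn_contractL [NeZero p] {O : Subring ℂ} {s : LaurentSeries ℂ} (h : SerIn O s) :
    SerIn O (BAD.contractL p s) := fun _ => h _

/-- The norm of a series over a ring containing `ζ_p` is over the ring. -/
theorem serIn_nrm {O : Subring ℂ} (hO : zetaC p ∈ O) {s : LaurentSeries ℂ} (h : SerIn O s) :
    SerIn O (nrm p s) := by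
  have : NeZero p := ⟨hp.out.ne_zero⟩
  exact serIn_contractL (Finset.prod_induction _ (SerIn O) (fun _ _ => SerIn.mul) SerIn.one
    fun j _ => BAD.serIn_twist h hO _)

/-- Norms of fine series are fine. -/
theorem Fine.nrm {s : LaurentSeries ℂ} (hs : Fine K s) : Fine K (nrm p s) := by
  classical
  obtain ⟨S, hS, h⟩ := hs
  have hS' : ((insert (zetaC p) S : Finset ℂ) : Set ℂ) ⊆ P.ring := by
    rw [Finset.coe_insert, Set.insert_subset_iff]; exact ⟨zetaC_mem_ring, hS⟩
  exact ⟨_, hS', serIn_nrm (K.subset hS' (by simp)) (serIn_mono h (K.mono (by simp)))⟩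

theorem abv_root_sub_one_lt {x : ℂ} (hx : x ^ p = 1) : P.abv (x - 1) < 1 :=
  (abv_root_sub_one_le hx zp_spec).trans_lt rp_lt_one

theorem red_conjSer {s : LaurentSeries ℂ} (hs : SerIn P.ring s) (j : ZMod p) :
    red (P := P) (conjSer p s j) = red s := by
  rw [red_eq_red_iff (BAD.serIn_twist hs zetaC_mem_ring _) hs]
  intro m
  rw [HahnSeries.coeff_sub, coeff_twistSer, show s.coeff m * (zetaC p ^ j.val) ^ m - s.coeff m =
    s.coeff m * ((zetaC p ^ j.val) ^ m - 1) by ring, map_mul]
  refine mul_lt_one_of_nonneg_of_lt_one_right (hs m) (P.abv.nonneg _) (abv_root_sub_one_lt ?_)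
  rw [← zpow_natCast, ← zpow_mul, mul_comm, zpow_mul, zpow_natCast, ← pow_mul, mul_comm, pow_mul,
    zetaC_pow_self, one_pow, one_zpow]

omit hp in
theorem red_prod {ι : Type*} (A : Finset ι) {f : ι → LaurentSeries ℂ}
    (hf : ∀ i, SerIn P.ring (f i)) : red (P := P) (∏ i ∈ A, f i) = ∏ i ∈ A, red (f i) := by
  classical
  induction A using Finset.induction_on with
  | empty => simp [red_one]
  | insert a A ha ih =>
    rw [Finset.prod_insert ha, Finset.prod_insert ha, red_mul (hf a)
      (Finset.prod_induction _ (SerIn P.ring) (fun _ _ => SerIn.mul) SerIn.one fun i _ => hf i), ih]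

/-- **The norm reduces to the Frobenius twist.** -/
theorem red_nrm {s : LaurentSeries ℂ} (hs : SerIn P.ring s) :
    red (P := P) (nrm p s) = ES.liftSer (frobenius (ResField P) p) (red s) := by
  refine BAD.expandL_injective p ?_
  rw [← red_expandL (serIn_nrm zetaC_mem_ring hs), expandL_nrm, ← pow_char_expand,
    red_prod _ fun j => BAD.serIn_twist hs zetaC_mem_ring _]
  simp [red_conjSer hs]

/-- The coefficients of the reduced norm are the `p`-th powers of those of the reduction. -/
theorem coeff_red_nrm {s : LaurentSeries ℂ} (hs : SerIn P.ring s) (k : ℤ) :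
    (red (P := P) (nrm p s)).coeff k = (red (P := P) s).coeff k ^ p := by
  rw [red_nrm hs, ES.coeff_liftSer, frobenius_def]

/-- **The norm near `1`.** -/
theorem serLE_nrm_one_add {a : ℂ} (ha : P.abv a ≤ 1) {x : LaurentSeries ℂ}
    (hx : SerIn P.ring x) :
    P.SerLE (P.abv p * P.abv a)
      (nrm p (1 + HahnSeries.C a * x) - 1 - HahnSeries.C (a ^ p) * nrm p x) := by
  classical
  intro k
  set f : ZMod p → LaurentSeries ℂ := fun j => HahnSeries.C a * conjSer p x j with hf
  set F : Finset (ZMod p) → ℂ := fun T => (∏ j ∈ T, f j).coeff ((p : ℤ) * k) with hF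
  set S0 : Finset (Finset (ZMod p)) :=
    (Finset.univ : Finset (ZMod p)).powerset \ {∅, Finset.univ} with hS0
  have hprod : ∏ j : ZMod p, conjSer p (1 + HahnSeries.C a * x) j = ∏ j : ZMod p, (1 + f j) :=
    Finset.prod_congr rfl fun j _ => by
      rw [conjSer, twistSer_add', twistSer_one,
        BAD.twistSer_mul _ (pow_ne_zero _ zetaC_p_ne_zero), twistSer_C]
  have hempty : (∅ : Finset (ZMod p)) ≠ Finset.univ := fun h => by
    exact hp.out.ne_zero (by simpa using (congrArg Finset.card h).symm)
  have hsum : (nrm p (1 + HahnSeries.C a * x) - 1 - HahnSeries.C (a ^ p) * nrm p x).coeff k =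
      ∑ T ∈ S0, F T := by
    have h1 : (1 : LaurentSeries ℂ).coeff k = F ∅ := by
      simp only [hF, Finset.prod_empty]
      rcases eq_or_ne k 0 with rfl | hk
      · simp
      · rw [HahnSeries.coeff_one, HahnSeries.coeff_one, if_neg hk,
          if_neg (mul_ne_zero (Int.natCast_ne_zero.mpr hp.out.ne_zero) hk)]
    have h2 : (HahnSeries.C (a ^ p) * nrm p x).coeff k = F Finset.univ := by
      simp only [hF, hf]
      rw [Finset.prod_mul_distrib, Finset.prod_const, Finset.card_univ, ZMod.card, ← map_pow,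
        HahnSeries.C_apply, HahnSeries.coeff_single_mul, HahnSeries.coeff_single_mul, sub_zero,
        sub_zero, coeff_nrm]
    rw [HahnSeries.coeff_sub, HahnSeries.coeff_sub, h1, h2, coeff_nrm, hprod,
      Finset.prod_one_add, HahnSeries.coeff_sum, sub_sub, hS0, ← Finset.sum_pair (f := F) hempty,
      eq_comm, eq_sub_iff_add_eq]
    exact Finset.sum_sdiff (by simp)
  rw [hsum]
  -- translation invariance
  have hshift : ∀ (T : Finset (ZMod p)), F (T.image (· + 1)) = F T := by
    intro T
    simp only [hF, hf]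
    rw [Finset.prod_image fun u _ v _ h => add_right_cancel h]
    have e : ∀ j, HahnSeries.C a * conjSer p x (j + 1) =
        twistSer (zetaC p) (HahnSeries.C a * conjSer p x j) := fun j => by
      rw [BAD.twistSer_mul _ zetaC_p_ne_zero, twistSer_C, conjSer_succ]
    simp only [e]
    rw [← twistSer_prod zetaC_p_ne_zero, coeff_twistSer, zpow_mul, zpow_natCast, zetaC_pow_self,
      one_zpow, mul_one]
  have htrans : ∀ (c : ℕ) (T : Finset (ZMod p)), F (T.image (· + (c : ZMod p))) = F T := by
    intro c
    induction c with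
    | zero => simp
    | succ c ih =>
      intro T
      rw [← ih T, ← hshift (T.image (· + (c : ZMod p))), Finset.image_image]
      congr 2
      funext u
      simp [add_assoc]
  have hcard : ∀ T ∈ S0, 0 < T.card ∧ T.card < p := by
    intro T hT
    simp only [hS0, Finset.mem_sdiff, Finset.mem_insert, Finset.mem_singleton, not_or] at hT
    refine ⟨Finset.card_pos.mpr (Finset.nonempty_of_ne_empty hT.2.1), ?_⟩
    exact (Finset.card_lt_iff_ne_univ T).mpr hT.2.2 |>.trans_eq (ZMod.card p)
  set G : Finset (ZMod p) → ℂ := fun T => F T / (T.card : ℂ)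
  have hfib : ∀ c : ZMod p, ∑ T ∈ S0 with c ∈ T, G T = ∑ T ∈ S0 with 0 ∈ T, G T := by
    intro c
    have hmem : ∀ (d : ZMod p) (T : Finset (ZMod p)), T ∈ S0 → T.image (· + d) ∈ S0 := by
      intro d T hT
      have := hcard T hT
      have hc : (T.image (· + d)).card = T.card :=
        Finset.card_image_of_injective _ (add_left_injective d)
      simp only [hS0, Finset.mem_sdiff, Finset.mem_powerset, Finset.subset_univ, true_and,
        Finset.mem_insert, Finset.mem_singleton, not_or]
      constructor <;> intro h <;> rw [h] at hc <;> simp at hc <;> omega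
    refine Finset.sum_nbij' (fun T => T.image (· + (-c))) (fun T => T.image (· + c)) ?_ ?_ ?_ ?_ ?_
    · intro T hT
      simp only [Finset.mem_filter] at hT ⊢
      exact ⟨hmem _ _ hT.1, Finset.mem_image.mpr ⟨c, hT.2, add_neg_cancel c⟩⟩
    · intro T hT
      simp only [Finset.mem_filter] at hT ⊢
      exact ⟨hmem _ _ hT.1, Finset.mem_image.mpr ⟨0, hT.2, zero_add c⟩⟩
    · intro T _; rw [Finset.image_image]; simp [Function.comp_def]
    · intro T _; rw [Finset.image_image]; simp [Function.comp_def]
    · intro T _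
      simp only [G]
      rw [Finset.card_image_of_injective _ (add_left_injective _)]
      congr 1
      have := htrans ((-c).val) T
      rw [ZMod.natCast_zmod_val] at this
      exact this.symm
  have hdouble : ∑ T ∈ S0, F T = (p : ℂ) * ∑ T ∈ S0 with 0 ∈ T, G T := by
    have e : ∀ T ∈ S0, F T = ∑ c ∈ T, G T := fun T hT => by
      have := (hcard T hT).1
      rw [Finset.sum_const, nsmul_eq_mul, mul_div_cancel₀]
      exact_mod_cast this.ne'
    rw [Finset.sum_congr rfl e, Finset.sum_comm' (s' := fun c => S0.filter (c ∈ ·))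
      (t' := (Finset.univ : Finset (ZMod p))) (by simp), Finset.sum_congr rfl fun c _ => hfib c,
      Finset.sum_const, Finset.card_univ, ZMod.card, nsmul_eq_mul]
  rw [hdouble, map_mul]
  refine mul_le_mul_of_nonneg_left ?_ (P.abv.nonneg _)
  refine Finset.sum_induction _ (fun y => P.abv y ≤ P.abv a) (fun _ _ => P.add_le) (by simp)
    fun T hT => ?_
  obtain ⟨h0, hp'⟩ := hcard T (Finset.mem_filter.mp hT).1
  have hu : P.abv (T.card : ℂ) = 1 := P.abv_natCast_eq_one
    ((hp.out.coprime_iff_not_dvd.mpr fun h => by have := Nat.le_of_dvd h0 h; omega).symm)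
  show P.abv (F T / (T.card : ℂ)) ≤ _
  rw [map_div₀, hu, div_one]
  simp only [hF, hf]
  rw [Finset.prod_mul_distrib, Finset.prod_const, ← map_pow, HahnSeries.C_apply,
    HahnSeries.coeff_single_mul, sub_zero, map_mul]
  have hin : SerIn P.ring (∏ j ∈ T, conjSer p x j) :=
    Finset.prod_induction _ (SerIn P.ring) (fun _ _ => SerIn.mul) SerIn.one
      fun j _ => BAD.serIn_twist hx zetaC_mem_ring _
  refine (mul_le_of_le_one_right (P.abv.nonneg _) (hin _)).trans ?_
  rw [map_pow]
  exact pow_le_of_le_one (P.abv.nonneg _) ha h0.ne'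

/-- **The norm contracts.** -/
theorem serLE_nrm_sub_one {c : ℝ} {y : LaurentSeries ℂ} (hy : Fine K y) (hc : 0 ≤ c) (hc1 : c ≤ 1)
    (h : P.SerLE c (y - 1)) : P.SerLE (max (P.abv p * c) (c ^ p)) (nrm p y - 1) := by
  obtain ⟨a, x, ha, hx, e, -⟩ := (hy.sub Fine.one).exists_scaled hc h
  have ey : y = 1 + HahnSeries.C a * x := by rw [← e]; ring
  rw [ey, show nrm p (1 + HahnSeries.C a * x) - 1 =
    (nrm p (1 + HahnSeries.C a * x) - 1 - HahnSeries.C (a ^ p) * nrm p x) +
      HahnSeries.C (a ^ p) * nrm p x by ring]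
  refine ((serLE_nrm_one_add (ha.trans hc1) hx).mono ?_).add
    ((CPlace.SerLE.C_mul (c := c ^ p) ?_ (serIn_nrm zetaC_mem_ring hx)).mono (le_max_right _ _))
  · exact (mul_le_mul_of_nonneg_left ha (P.abv.nonneg _)).trans (le_max_left _ _)
  · rw [map_pow]; exact pow_le_pow_left₀ (P.abv.nonneg _) ha p

end FermatAgent.PSEMI
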