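import Fermat.Agent.PSEMI.Series.Frob
import Mathlib.Analysis.SpecialFunctions.Pow.Real

/-!
# Sieving towards `p`-th powers

A property stable under multiplication by `p`-th powers, in which leading parts are `p`-th
powers, forces a series to within every `d > |ζ - 1| ^ p` of a `p`-th power.
-/

set_option autoImplicit false

noncomputable section

namespace FermatAgent.PSEMI

open FermatAgent.ES FermatAgent.Curve.Red

variable {p : ℕ} [hp : Fact p.Prime] {P : CPlace p} {K : Coeffs P}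

/-- The leading part of a series near a `p`-th power is a `p`-th power. -/
theorem red_mem_pow_of_powApprox {X f : LaurentSeries ℂ} {a : ℂ} (hX : PowApprox K p (rp P ^ p) X)
    (ha : rp P ^ p < P.abv a) (ha1 : P.abv a < 1) (hf : SerIn P.ring f)
    (e : X = 1 + HahnSeries.C a * f) : ∃ r, red (P := P) f = r ^ p := by
  obtain ⟨s, hs, hle⟩ := hX
  obtain ⟨α, hα⟩ := IsAlgClosed.exists_pow_nat_eq a hp.out.pos
  have hαa : P.abv α ^ p = P.abv a := by rw [← map_pow, hα]
  have hτ : rp P < P.abv α := lt_of_pow_lt_pow_left₀ p (P.abv.nonneg _) (hαa ▸ ha)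
  have hα1 : P.abv α < 1 := lt_of_pow_lt_pow_left₀ p zero_le_one (by rw [one_pow, hαa]; exact ha1)
  have hα0 : α ≠ 0 := fun h0 => by
    rw [h0, map_zero] at hτ; exact (rp_pos.trans hτ).false
  have ha0 : a ≠ 0 := hα ▸ pow_ne_zero p hα0
  have hsle : P.SerLE (P.abv α ^ p) (s ^ p - 1) := by
    rw [hαa, show s ^ p - 1 = HahnSeries.C a * f + -(X - s ^ p) by rw [e]; ring]
    refine CPlace.SerLE.add ?_ ((hle.mono ha.le).neg)
    simpa using serLE_C_mul a (P.serLE_one_iff.mpr hf)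
  have hh := serLE_sub_one_of_pow hs hτ.le hsle
  set k := HahnSeries.C α⁻¹ * (s - 1) with hk
  have hki : SerIn P.ring k := by
    rw [← P.serLE_one_iff, hk]
    refine (serLE_C_mul α⁻¹ hh).mono ?_
    rw [map_inv₀, inv_mul_cancel₀ (rp_pos.trans hτ).ne']
  obtain ⟨q, hq, hqe⟩ := exists_binom (SerIn.one (A := P.ring)) (hh.serIn hα1.le)
  refine ⟨red k, ?_⟩
  rw [← red_pow hki, red_eq_red_iff hf (hki.pow p)]
  intro n
  have ek : HahnSeries.C a * k ^ p = (s - 1) ^ p := by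
    rw [hk, mul_pow, ← map_pow, ← mul_assoc, ← map_mul, ← hα, ← mul_pow, mul_inv_cancel₀ hα0,
      one_pow, map_one, one_mul]
  have key : HahnSeries.C a * (f - k ^ p) = (X - s ^ p) +
      (p : LaurentSeries ℂ) * ((s - 1) * q) := by
    rw [add_sub_cancel, one_pow, mul_one] at hqe
    rw [mul_sub, ek, e, hqe]; ring
  have h1 : P.SerLE (max (rp P ^ p) (P.abv p * P.abv α)) (HahnSeries.C a * (f - k ^ p)) := by
    rw [key]
    exact (hle.mono (le_max_left _ _)).add
      ((serLE_natCast_mul p (hh.mul_serIn (P.abv.nonneg _) hq)).mono (le_max_right _ _))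
  have h2 := h1 n
  rw [HahnSeries.C_apply, HahnSeries.coeff_single_mul, sub_zero, map_mul] at h2
  have hmax : max (rp P ^ p) (P.abv p * P.abv α) < P.abv a :=
    max_lt ha (hαa ▸ abv_p_mul_lt_pow hτ)
  by_contra hn
  push Not at hn
  exact absurd ((le_mul_of_one_le_right (P.abv.nonneg a) hn).trans h2) (not_le.mpr hmax)

/-- The first order terms of a twisted norm which is deeply a `p`-th power differ by a `p`-th
power. -/
theorem exists_red_sub_eq_pow {Z T x y : LaurentSeries ℂ} {a : ℂ}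
    (h : PowApprox K p (rp P ^ p) (T * Z ^ (p - 1))) (ha : rp P ^ p < P.abv a) (ha1 : P.abv a < 1)
    (hx : SerIn P.ring x) (hy : SerIn P.ring y) (eZ : Z = 1 + HahnSeries.C a * x)
    (eT : T = 1 + HahnSeries.C a * y) : ∃ r, red (P := P) y - red x = r ^ p := by
  have haR : a ∈ P.ring := ha1.le
  obtain ⟨q, hq⟩ := Polynomial.powAddExpansion (⟨1, SerIn.one⟩ : Curve.Red.serSub P.ring)
    ⟨_, (SerIn.C haR).mul hx⟩ (p - 1)
  have hq' := congrArg Subtype.val hq
  push_cast at hq'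
  simp only [one_pow, mul_one] at hq'
  set g := x ^ 2 * (q : LaurentSeries ℂ) * (1 + HahnSeries.C a * y) +
    y * ((p - 1 : ℕ) : LaurentSeries ℂ) * x
  have hc : SerIn P.ring ((p - 1 : ℕ) : LaurentSeries ℂ) := natCast_mem (Curve.Red.serSub P.ring) _
  have hgi : SerIn P.ring g :=
    (((hx.pow 2).mul q.2).mul (SerIn.one.add ((SerIn.C haR).mul hy))).add ((hy.mul hc).mul hx)
  set f := y + ((p - 1 : ℕ) : LaurentSeries ℂ) * x + HahnSeries.C a * g with hf
  have hfi : SerIn P.ring f := (hy.add (hc.mul hx)).add ((SerIn.C haR).mul hgi)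
  obtain ⟨r, hr⟩ := red_mem_pow_of_powApprox h ha ha1 hfi (by
    rw [eT, eZ, hq', hf]; simp only [g]; ring)
  refine ⟨r, ?_⟩
  have hp1 : red (P := P) (((p - 1 : ℕ) : LaurentSeries ℂ)) = -1 := by
    simp only [← map_natCast (HahnSeries.C : ℂ →+* LaurentSeries ℂ)]
    rw [red_C (natCast_mem P.ring (p - 1)),
      show (⟨((p - 1 : ℕ) : ℂ), natCast_mem P.ring (p - 1)⟩ :
      P.ring) = ((p - 1 : ℕ) : P.ring) from rfl, map_natCast, Nat.cast_sub hp.out.one_le,
      CharP.cast_eq_zero, Nat.cast_one, zero_sub, map_neg, map_one]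
  rw [← hr, hf, red_add (hy.add (hc.mul hx)) ((SerIn.C haR).mul hgi), red_add hy (hc.mul hx),
    red_mul (SerIn.C haR) hgi, red_C haR,
    rd_eq_zero_iff.mpr (show P.abv ((⟨a, haR⟩ : P.ring) : ℂ) < 1 from ha1), map_zero, zero_mul,
    add_zero, red_mul hc hx, hp1]
  ring

/-- The data of a sieve. -/
structure Sieve (K : Coeffs P) (Q : LaurentSeries ℂ → Prop) : Prop where
  mul : ∀ Z g, Fine K Z → Fine K g → Q Z → Q (Z * g ^ p)
  lead : ∀ Z e a, Fine K Z → Q Z → rp P ^ p < P.abv a → P.abv a < 1 → SerIn P.ring e →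
    Z = 1 + HahnSeries.C a * e → ∃ r, red (P := P) e = r ^ p

variable {Q : LaurentSeries ℂ → Prop}

omit hp in
theorem unitCoeff_one_add {t : LaurentSeries ℂ} (ht : P.SerLT t) : P.UnitCoeff (1 + t) :=
  CPlace.UnitCoeff.of_serLE_sub (P := P) (s := 1) ⟨0, by simp⟩
    (show P.SerLT (1 - (1 + t)) from fun n => by simpa using ht n)
    ((SerIn.one (A := P.ring)).add fun n => (ht n).le)

omit hp in
theorem serLT_of_serLE {c : ℝ} {t : LaurentSeries ℂ} (h : P.SerLE c t) (hc : c < 1) : P.SerLT t :=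
  fun n => (h n).trans_lt hc

/-- One round of the sieve. -/
theorem Sieve.round (hQ : Sieve K Q) {Z : LaurentSeries ℂ} (hZ : Fine K Z) (hz : Q Z) {τ D : ℝ}
    (hτ : rp P < τ) (hτ1 : τ < 1) (hD : P.abv p * τ ≤ D) (h0 : P.SerLE (τ ^ p) (Z - 1)) :
    PowApprox K p D Z := by
  classical
  have hτ0 : 0 < τ := rp_pos.trans hτ
  have hRD : rp P ^ p < D := lt_of_lt_of_le (by
    rw [← abv_p_mul_rp]
    exact mul_lt_mul_of_pos_left hτ (P.abv.pos (Nat.cast_ne_zero.mpr hp.out.ne_zero))) hD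
  have hD0 : 0 < D := (pow_pos rp_pos p).trans hRD
  obtain ⟨S, hS, hin⟩ := hZ.sub (Fine.one (K := K))
  have hO := K.isCDVR hS
  obtain ⟨ρ, hρ0, hρ1, hρ⟩ := exists_serLE_of_serLT hO
  have claim : ∀ n : ℕ, ∃ t E, Fine K t ∧ P.SerLE τ t ∧ SerIn (K.R S) E ∧
      P.SerLE (max D (ρ ^ n * τ ^ p)) E ∧ P.SerLE D (Z - (1 + t) ^ p - E) := by
    intro n
    induction n with
    | zero =>
      exact ⟨0, Z - 1, Fine.zero, CPlace.SerLE.zero hτ0.le, hin,
        h0.mono (by rw [pow_zero, one_mul]; exact le_max_right _ _),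
        by simpa using CPlace.SerLE.zero (P := P) hD0.le⟩
    | succ n ih =>
      obtain ⟨t, E, ht, htle, hEin, hEle, hrest⟩ := ih
      by_cases hED : P.SerLE D E
      · exact ⟨t, E, ht, htle, hEin, hED.mono (le_max_left _ _), hrest⟩
      have hE0 : E ≠ 0 := fun h => hED (h ▸ CPlace.SerLE.zero hD0.le)
      obtain ⟨a, haO, ha0, e, he, ⟨i, hi⟩, hEe, hEa⟩ := exists_content hO hEin hE0
      have haD : D < P.abv a := by
        by_contra h
        exact hED (hEa.mono (not_lt.mp h))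
      have haτ : P.abv a ≤ ρ ^ n * τ ^ p := by
        have h1 := hEle i
        rw [hEe, HahnSeries.C_apply, HahnSeries.coeff_single_mul, sub_zero, map_mul, hi,
          mul_one] at h1
        rcases le_max_iff.mp h1 with h | h
        · exact absurd h (not_le.mpr haD)
        · exact h
      have haτp : P.abv a ≤ τ ^ p :=
        haτ.trans (mul_le_of_le_one_left (by positivity) (pow_le_one₀ hρ0.le hρ1.le))
      have ha1 : P.abv a < 1 := haτp.trans_lt (pow_lt_one₀ hτ0.le hτ1 hp.out.ne_zero)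
      obtain ⟨α, hα⟩ := IsAlgClosed.exists_pow_nat_eq a hp.out.pos
      have hατ : P.abv α ≤ τ :=
        le_of_pow_le_pow_left₀ hp.out.ne_zero hτ0.le (by rw [← map_pow, hα]; exact haτp)
      have ht1 : P.SerLT t := serLT_of_serLE htle hτ1
      obtain ⟨w, hw, -, hwle⟩ := (Fine.one.add ht).exists_invApprox (unitCoeff_one_add (P := P) ht1)
        (pow_pos (rp_pos (P := P)) p) (pow_lt_one₀ rp_nonneg rp_lt_one hp.out.ne_zero)
      have heP := serIn_mono he hO.le
      have hwp := hw.serIn.pow p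
      set U := (1 + t) * w - 1 with hU
      have hUi : SerIn P.ring ((1 + t) * w) := (Fine.one.add ht).serIn.mul hw.serIn
      have hrest2 : P.SerLE D ((Z - (1 + t) ^ p - E) * w ^ p + (((1 + t) * w) ^ p - 1 ^ p)) :=
        (hrest.mul_serIn hD0.le hwp).add
          (CPlace.SerLE.pow_sub_pow hD0.le hUi SerIn.one (hwle.mono hRD.le) p)
      set rest := (Z - (1 + t) ^ p - E) * w ^ p + (((1 + t) * w) ^ p - 1 ^ p) with hrestdef
      have hrl : P.SerLT (HahnSeries.C a⁻¹ * rest) := fun k => by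
        rw [HahnSeries.C_apply, HahnSeries.coeff_single_mul, sub_zero, map_mul, map_inv₀,
          inv_mul_lt_one₀ (P.abv.pos ha0)]
        exact (hrest2 k).trans_lt haD
      have hri : SerIn P.ring (HahnSeries.C a⁻¹ * rest) := fun k => (hrl k).le
      have eZ : Z * w ^ p = 1 + HahnSeries.C a * (e * w ^ p + HahnSeries.C a⁻¹ * rest) := by
        rw [mul_add, ← mul_assoc, ← mul_assoc, ← map_mul, mul_inv_cancel₀ ha0, map_one, one_mul,
          ← hEe, hrestdef, mul_pow, one_pow]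
        ring
      obtain ⟨r, hr⟩ := hQ.lead _ _ a (hZ.mul (hw.pow p)) (hQ.mul _ _ hZ hw hz)
        (hRD.trans haD) ha1 ((heP.mul hwp).add hri) eZ
      have hwr : red (P := P) (w ^ p) = 1 := by
        have h1 : red (P := P) ((1 + t) * w) = 1 := by
          rw [← red_one (P := P), red_eq_red_iff hUi SerIn.one]
          exact fun k => (hwle k).trans_lt (pow_lt_one₀ rp_nonneg rp_lt_one hp.out.ne_zero)
        rw [red_mul (Fine.one.add ht).serIn hw.serIn, show red (P := P) (1 + t) = 1 by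
          rw [← red_one (P := P), red_eq_red_iff (Fine.one.add ht).serIn SerIn.one]
          simpa using ht1, one_mul] at h1
        rw [red_pow hw.serIn, h1, one_pow]
      have her : red (P := P) e = r ^ p := by
        rw [← hr, red_add (heP.mul hwp) hri, red_mul heP hwp, hwr, mul_one,
          (red_eq_zero_iff hri).mpr hrl, add_zero]
      obtain ⟨r', hr', hr'r, -⟩ := exists_lift hO (h := r) fun m => mem_resImage_of_pow K hO (by
        rw [← coeff_pow_char, ← her]; exact coeff_red_mem hO he _)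
      have hr'P := serIn_mono hr' hO.le
      have hαR : α ∈ P.ring := hατ.trans hτ1.le
      have hlt : P.SerLT (e - r' ^ p) := by
        rw [← red_eq_red_iff heP (hr'P.pow p), red_pow hr'P, hr'r, her]
      refine ⟨t + HahnSeries.C α * r', E - HahnSeries.C a * r' ^ p,
        ht.add ((Fine.C hαR).mul ⟨S, hS, hr'⟩), htle.add (CPlace.SerLE.C_mul hατ hr'P), ?_, ?_, ?_⟩
      · rw [hEe, ← mul_sub]
        exact (SerIn.C haO).mul (he.sub (hr'.pow p))
      · rw [hEe, ← mul_sub]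
        refine ((serLE_C_mul a (hρ (he.sub (hr'.pow p)) hlt))).mono
          ((le_trans ?_ (le_max_right _ _)))
        rw [pow_succ', mul_assoc, mul_comm]
        exact mul_le_mul_of_nonneg_left haτ hρ0.le
      · obtain ⟨q, hq, hqe⟩ := exists_binom (Fine.one.add ht).serIn
          ((SerIn.C hαR).mul hr'P)
        rw [show 1 + (t + HahnSeries.C α * r') = (1 + t) + HahnSeries.C α * r' by ring, hqe,
          show Z - ((1 + t) ^ p + (HahnSeries.C α * r') ^ p +
              (p : LaurentSeries ℂ) * (1 + t) * (HahnSeries.C α * r') * q) -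
              (E - HahnSeries.C a * r' ^ p) = (Z - (1 + t) ^ p - E) +
              -((p : LaurentSeries ℂ) * (HahnSeries.C α * r' * ((1 + t) * q))) by
            rw [mul_pow, ← map_pow, hα]; ring]
        refine hrest.add (((serLE_natCast_mul p ((CPlace.SerLE.C_mul hατ hr'P).mul_serIn hτ0.le
          ((Fine.one.add ht).serIn.mul hq)))).mono hD).neg
  obtain ⟨N, hN⟩ := exists_pow_lt_of_lt_one (div_pos hD0 (pow_pos hτ0 p)) hρ1
  obtain ⟨t, E, ht, -, -, hEle, hrest⟩ := claim N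
  refine ⟨1 + t, Fine.one.add ht, ?_⟩
  have := hrest.add (hEle.mono (max_le le_rfl ((lt_div_iff₀ (pow_pos hτ0 p)).mp hN).le))
  simpa using this

/-- Reduction to series near `1`. -/
theorem exists_near_one {y : LaurentSeries ℂ} (hy : Fine K y) (huy : P.UnitCoeff y) {c : ℝ}
    (hc : rp P ^ p ≤ c) (hc1 : c < 1) (h : PowApprox K p c y) :
    ∃ w, Fine K w ∧ P.UnitCoeff w ∧ P.SerLE c (y * w ^ p - 1) := by
  obtain ⟨g, hg, hle⟩ := h
  have hc0 : 0 < c := (pow_pos rp_pos p).trans_le hc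
  obtain ⟨w, hw, hwu, hwle⟩ := hg.exists_invApprox
    (unitCoeff_of_sub_pow hp.out.ne_zero hg hy.serIn huy hc1 hle) hc0 hc1
  refine ⟨w, hw, hwu, ?_⟩
  rw [show y * w ^ p - 1 = (y - g ^ p) * w ^ p + ((g * w) ^ p - 1 ^ p) by ring]
  exact (hle.mul_serIn hc0.le (hw.serIn.pow p)).add
    (CPlace.SerLE.pow_sub_pow hc0.le (hg.serIn.mul hw.serIn) SerIn.one hwle p)

theorem PowApprox.of_mul_pow {y w : LaurentSeries ℂ} {c : ℝ} (hc : 0 < c) (hc1 : c < 1)
    (hy : Fine K y) (hw : Fine K w) (huw : P.UnitCoeff w) (h : PowApprox K p c (y * w ^ p)) :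
    PowApprox K p c y :=
  h.of_mul hp.out.ne_zero hc hc1 hy.serIn (hw.serIn.pow p) (huw.pow hw.serIn p)
    (powApprox_pow hw hc.le p)

theorem Sieve.improve (hQ : Sieve K Q) {y : LaurentSeries ℂ} (hy : Fine K y)
    (huy : P.UnitCoeff y) (hQy : Q y) {τ D : ℝ} (hτ : rp P < τ) (hτ1 : τ < 1)
    (hD : P.abv p * τ ≤ D) (hD1 : D < 1) (h : PowApprox K p (τ ^ p) y) : PowApprox K p D y := by
  obtain ⟨w, hw, hwu, hle⟩ := exists_near_one hy huy
    (pow_le_pow_left₀ rp_nonneg hτ.le p) (pow_lt_one₀ (rp_pos.trans hτ).le hτ1 hp.out.ne_zero) h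
  have hD0 : 0 < D := lt_of_lt_of_le
    (mul_pos (P.abv.pos (Nat.cast_ne_zero.mpr hp.out.ne_zero)) (rp_pos.trans hτ)) hD
  exact PowApprox.of_mul_pow hD0 hD1 hy hw hwu
    (hQ.round (hy.mul (hw.pow p)) (hQ.mul _ _ hy hw hQy) hτ hτ1 hD hle)

theorem powApprox_start {y : LaurentSeries ℂ} (hy : Fine K y) {r : LaurentSeries (ResField P)}
    (hr : red (P := P) y = r ^ p) : ∃ c, c < 1 ∧ PowApprox K p c y := by
  obtain ⟨S, hS, hin⟩ := hy
  have hO := K.isCDVR hS
  obtain ⟨s, hs, hsr, -⟩ := exists_lift hO (h := r) fun m => mem_resImage_of_pow K hO (by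
    rw [← coeff_pow_char, ← hr]; exact coeff_red_mem hO hin _)
  have hsF : Fine K s := ⟨S, hS, hs⟩
  have hlt : P.SerLT (y - s ^ p) := by
    rw [← red_eq_red_iff (serIn_mono hin hO.le) (hsF.serIn.pow p), red_pow hsF.serIn, hsr, hr]
  obtain ⟨ρ, -, hρ1, hle⟩ := (Fine.sub ⟨S, hS, hin⟩ (hsF.pow p)).exists_serLE_lt_one hlt
  exact ⟨ρ, hρ1, s, hsF, hle⟩

/-- The sieve reaches every `τ > |ζ - 1|`. -/
theorem Sieve.reach (hQ : Sieve K Q) {y : LaurentSeries ℂ} (hy : Fine K y)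
    (huy : P.UnitCoeff y) (hQy : Q y) (hres : ∃ r, red (P := P) y = r ^ p) {τ : ℝ}
    (hτ : rp P < τ) : PowApprox K p (τ ^ p) y := by
  set S : Set ℝ := {t | rp P < t ∧ t < 1 ∧ PowApprox K p (t ^ p) y}
  have hp0 : (p : ℕ) ≠ 0 := hp.out.ne_zero
  have hne : S.Nonempty := by
    obtain ⟨r, hr⟩ := hres
    obtain ⟨c, hc1, hc⟩ := powApprox_start hy hr
    set c' := max c ((rp P ^ p + 1) / 2)
    have hR1 : rp P ^ p < 1 := pow_lt_one₀ rp_nonneg rp_lt_one hp0
    have hc'0 : 0 ≤ c' := le_max_of_le_right (by linarith [pow_nonneg (rp_nonneg (P := P)) p])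
    have hc'1 : c' < 1 := max_lt hc1 (by linarith)
    have e : (c' ^ ((p : ℝ)⁻¹)) ^ p = c' := Real.rpow_inv_natCast_pow hc'0 hp0
    refine ⟨c' ^ ((p : ℝ)⁻¹), ?_, ?_, ?_⟩
    · refine lt_of_pow_lt_pow_left₀ p (Real.rpow_nonneg hc'0 _) ?_
      rw [e]; exact lt_of_lt_of_le (by linarith) (le_max_right _ _)
    · exact lt_of_pow_lt_pow_left₀ p zero_le_one (by rw [e, one_pow]; exact hc'1)
    · rw [e]; exact hc.mono (le_max_left _ _)
  have hbdd : BddBelow S := ⟨rp P, fun t ht => ht.1.le⟩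
  have hinf : sInf S ≤ rp P := by
    by_contra hlt
    push Not at hlt
    obtain ⟨t0, ht0⟩ := id hne
    have hi1 : sInf S < 1 := (csInf_le hbdd ht0).trans_lt ht0.2.1
    have hpp : (0 : ℝ) < P.abv p := P.abv.pos (Nat.cast_ne_zero.mpr hp0)
    set m := (P.abv p * sInf S + sInf S ^ p) / 2 with hm
    have hgap := abv_p_mul_lt_pow hlt
    have hm1 : m < 1 := by
      have := pow_lt_one₀ (rp_pos.trans hlt).le hi1 hp0
      simp only [m]; linarith
    have hm0 : 0 < m := by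
      have : 0 < P.abv p * sInf S := mul_pos hpp (rp_pos.trans hlt)
      simp only [m]; linarith
    obtain ⟨t, ⟨ht1, ht2, ht3⟩, htlt⟩ := exists_lt_of_csInf_lt hne
      (show sInf S < m / P.abv p by rw [lt_div_iff₀ hpp, mul_comm]; simp only [m]; linarith)
    have h1 : PowApprox K p m y := hQ.improve hy huy hQy ht1 ht2
      (by rw [lt_div_iff₀ hpp, mul_comm] at htlt; exact htlt.le) hm1 ht3
    have e : (m ^ ((p : ℝ)⁻¹)) ^ p = m := Real.rpow_inv_natCast_pow hm0.le hp0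
    have hlow : rp P < m ^ ((p : ℝ)⁻¹) := by
      refine lt_of_pow_lt_pow_left₀ p (Real.rpow_nonneg hm0.le _) ?_
      rw [e, ← abv_p_mul_rp]
      calc P.abv p * rp P < P.abv p * sInf S := mul_lt_mul_of_pos_left hlt hpp
        _ ≤ m := by simp only [m]; linarith
    have hhigh : m ^ ((p : ℝ)⁻¹) < sInf S := by
      refine lt_of_pow_lt_pow_left₀ p (rp_pos.trans hlt).le ?_
      rw [e]; simp only [m]; linarith
    exact (csInf_le hbdd ⟨hlow, hhigh.trans hi1, by rwa [e]⟩).not_gt hhigh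
  obtain ⟨t, ⟨ht1, -, ht3⟩, htlt⟩ := exists_lt_of_csInf_lt hne (hinf.trans_lt hτ)
  exact ht3.mono (pow_le_pow_left₀ (rp_pos.trans ht1).le htlt.le p)

/-- The square root of `|ζ - 1|`. -/
theorem exists_sqrt_rp : ∃ τ : ℝ, rp P < τ ∧ τ < 1 ∧ τ ^ 2 = rp P := by
  refine ⟨Real.sqrt (rp P), ?_, ?_, Real.sq_sqrt rp_nonneg⟩
  · rw [Real.lt_sqrt rp_nonneg, pow_two]
    exact mul_lt_of_lt_one_left rp_pos rp_lt_one
  · rw [Real.sqrt_lt' one_pos, one_pow]; exact rp_lt_one

/-- **The sieve.** -/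
theorem Sieve.near (hQ : Sieve K Q) {y : LaurentSeries ℂ} (hy : Fine K y)
    (huy : P.UnitCoeff y) (hQy : Q y) (hres : ∃ r, red (P := P) y = r ^ p)
    (final : ∀ Z τ, Fine K Z → Q Z → rp P < τ → τ < 1 → τ ^ 2 = rp P →
      P.SerLE (τ ^ p) (Z - 1) → PowApprox K p (rp P ^ p) Z) :
    PowApprox K p (rp P ^ p) y := by
  obtain ⟨τ, hτ, hτ1, hτ2⟩ := exists_sqrt_rp (P := P)
  obtain ⟨w, hw, hwu, hle⟩ := exists_near_one hy huy (pow_le_pow_left₀ rp_nonneg hτ.le p)
    (pow_lt_one₀ (rp_pos.trans hτ).le hτ1 hp.out.ne_zero) (hQ.reach hy huy hQy hres hτ)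
  exact PowApprox.of_mul_pow (pow_pos rp_pos p) (pow_lt_one₀ rp_nonneg rp_lt_one hp.out.ne_zero)
    hy hw hwu (final _ τ (hy.mul (hw.pow p)) (hQ.mul _ _ hy hw hQy) hτ hτ1 hτ2 hle)

end FermatAgent.PSEMI
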