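import Fermat.Agent.PSEMI.Scalar
import Fermat.Agent.PSEMI.Series.Norm
import Fermat.Agent.PSEMI.Series.Sieve

/-!
# Series killed by the norm and the expansion

If `y (q ^ p) · N y` and `σ y / y` are `p`-th powers to within `|ζ - 1| ^ p`, for an automorphism
`σ` moving `ζ`, then `y` is one.
-/

set_option autoImplicit false

noncomputable section

namespace FermatAgent.PSEMI

open FermatAgent.ES FermatAgent.Curve.Red
open FermatAgent.BAD (expandL expandL_coeff_mul expandL_coeff_of_not_dvd)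
open ModularCurve (coeffMap coeffMap_coeff)

variable {p : ℕ} [hp : Fact p.Prime] {P : CPlace p} {K : Coeffs P}

/-- An automorphism respecting the place, its residues and the coefficient rings. -/
structure Keeps (K : Coeffs P) (σ : ℂ ≃+* ℂ) : Prop where
  abv : ∀ x, P.abv (σ x) = P.abv x
  res : ∀ x, P.abv x ≤ 1 → P.abv (σ x - x) < 1
  fine : ∀ s, Fine K s → Fine K (coeffMap σ.toRingHom s)

/-- An automorphism of the place moving `ζ`. -/
structure Mover (K : Coeffs P) (σ : ℂ ≃+* ℂ) : Prop extends Keeps K σ where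
  moves : ∀ w : ℕ, σ (zp p) = zp p ^ w → (w : ResField P) ≠ 1

/-- The hypothesis. -/
def Killed (K : Coeffs P) (σ : ℂ ≃+* ℂ) (y : LaurentSeries ℂ) : Prop :=
  PowApprox K p (rp P ^ p) (expandL p y * nrm p y) ∧
    PowApprox K p (rp P ^ p) (coeffMap σ.toRingHom y * y ^ (p - 1))

variable {σ : ℂ ≃+* ℂ}

theorem killed_mul (hσ : Mover K σ) {Z g : LaurentSeries ℂ} (hg : Fine K g)
    (h : Killed K σ Z) : Killed K σ (Z * g ^ p) := by
  have hR := pow_nonneg (rp_nonneg (P := P)) p
  have hR1 : rp P ^ p ≤ 1 := pow_le_one₀ rp_nonneg rp_lt_one.le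
  constructor
  · rw [map_mul, map_pow, nrm_mul, nrm_pow,
      show expandL p Z * expandL p g ^ p * (nrm p Z * nrm p g ^ p) =
        expandL p Z * nrm p Z * (expandL p g * nrm p g) ^ p by ring]
    exact h.1.mul hR ((hg.expandL.mul hg.nrm).serIn.pow p)
      (powApprox_pow (hg.expandL.mul hg.nrm) hR p)
  · rw [map_mul, map_pow, mul_pow, ← pow_mul, mul_comm p (p - 1), pow_mul,
      show coeffMap σ.toRingHom Z * coeffMap σ.toRingHom g ^ p * (Z ^ (p - 1) * (g ^ (p - 1)) ^ p) =
        coeffMap σ.toRingHom Z * Z ^ (p - 1) * (coeffMap σ.toRingHom g * g ^ (p - 1)) ^ p by ring]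
    have hF := (hσ.fine g hg).mul (hg.pow (p - 1))
    exact h.2.mul hR (hF.serIn.pow p) (powApprox_pow hF hR p)

/-- A coefficient map sends a constant to the image constant. -/
theorem coeffMap_C' (σ : ℂ ≃+* ℂ) (a : ℂ) :
    coeffMap σ.toRingHom (HahnSeries.C a : LaurentSeries ℂ) = HahnSeries.C (σ a) := by
  rw [HahnSeries.C_apply, ModularCurve.coeffMap_single]; rfl

/-- In the critical radius, the residue of `σ a / a` is not `1`. -/
theorem not_fixed_of_critical (hσ : Mover K σ) {a : ℂ}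
    (h : P.abv a ^ (p + 1) = rp P ^ p) : ¬ P.abv (σ a / a - 1) < 1 := by
  intro hfix
  obtain ⟨w, -, hwz⟩ := (zp_spec (p := p)).eq_pow_of_pow_eq_one (ξ := σ (zp p))
    (by rw [← map_pow, (zp_spec (p := p)).pow_eq_one, map_one])
  refine hσ.moves w hwz.symm ?_
  set π := zp p - 1 with hπ
  have hπ0 : π ≠ 0 := sub_ne_zero.mpr ((zp_spec (p := p)).ne_one hp.out.one_lt)
  have ha0 : a ≠ 0 := by
    rintro rfl
    rw [map_zero, zero_pow (by omega)] at h
    exact (pow_pos rp_pos p).ne h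
  set c := ∑ i ∈ Finset.range w, zp p ^ i with hc
  have hσπ : σ π = c * π := by rw [hπ, map_sub, map_one, ← hwz, geom_sum_mul]
  have hz1 : zp p ∈ P.ring :=
    (P.abv_eq_one_of_pow_eq_one hp.out.ne_zero (zp_spec (p := p)).pow_eq_one).le
  have hcR : c ∈ P.ring := P.ring.sum_mem fun i _ => P.ring.pow_mem hz1 i
  set u := a ^ (p + 1) / π ^ p with hu
  have hu1 : P.abv u = 1 := by
    rw [hu, map_div₀, map_pow, map_pow, h]
    exact div_self (pow_ne_zero p (P.abv.ne_zero hπ0))
  have hu0 : u ≠ 0 := fun h0 => by rw [h0, map_zero] at hu1; exact zero_ne_one hu1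
  set b := σ a / a with hb
  have hb1 : P.abv b = 1 := by rw [hb, map_div₀, hσ.abv, div_self (P.abv.ne_zero ha0)]
  have hc0 : c ≠ 0 := fun h0 => by
    rw [h0, zero_mul] at hσπ; exact hπ0 (σ.injective (hσπ.trans (map_zero σ).symm))
  have hrel : σ u * c ^ p = b ^ (p + 1) * u := by
    rw [hu, hb, map_div₀, map_pow, map_pow, hσπ, mul_pow, div_pow]
    field_simp
  have key : P.abv (c ^ p - 1) < 1 := by
    have e : c ^ p - 1 = ((b ^ (p + 1) - 1) * u + (u - σ u)) / σ u := by
      rw [eq_div_iff (by simpa using hu0)]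
      linear_combination hrel
    rw [e, map_div₀, hσ.abv, hu1, div_one]
    refine P.add_lt ?_ ?_
    · rw [map_mul, hu1, mul_one, ← geom_sum_mul, map_mul]
      exact mul_lt_one_of_nonneg_of_lt_one_right
        (P.ring.sum_mem fun i _ => P.ring.pow_mem (show b ∈ P.ring from hb1.le) i)
        (P.abv.nonneg _) hfix
    · rw [← AbsoluteValue.map_neg, neg_sub]; exact hσ.res u hu1.le
  have hcw : rd (P := P) ⟨c, hcR⟩ = (w : ResField P) := by
    rw [← map_natCast (rd : P.ring →+* ResField P), ← sub_eq_zero, ← map_sub, rd_eq_zero_iff,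
      AddSubgroupClass.coe_sub, SubringClass.coe_natCast]
    show P.abv (c - (w : ℂ)) < 1
    rw [show c - (w : ℂ) = ∑ i ∈ Finset.range w, (zp p ^ i - 1) by
      simp [hc, Finset.sum_sub_distrib]]
    exact Finset.sum_induction _ (fun x => P.abv x < 1) (fun _ _ => P.add_lt) (by simp)
      fun i _ => abv_zp_pow_sub_one i
  have h1 : rd (P := P) (⟨c, hcR⟩ ^ p) = 1 := by
    rw [← map_one (rd : P.ring →+* ResField P), ← sub_eq_zero, ← map_sub, rd_eq_zero_iff]
    exact key
  rwa [map_pow, hcw, ← frobenius_def, map_natCast] at h1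

omit hp in
theorem exists_pow_of_smul {x r : LaurentSeries (ResField P)} (K : Coeffs P) {κ : ResField P}
    (hκ : κ ≠ 0) (h : HahnSeries.C κ * x = r ^ p) : ∃ s, x = s ^ p := by
  obtain ⟨μ, hμ⟩ := exists_root_res K κ⁻¹
  refine ⟨HahnSeries.C μ * r, ?_⟩
  rw [mul_pow, ← map_pow, hμ, ← h, ← mul_assoc, ← map_mul, inv_mul_cancel₀ hκ, map_one, one_mul]

omit hp in
private theorem coeff_natCast_mul (k : ℕ) (t : LaurentSeries ℂ) (m : ℤ) :
    ((k : LaurentSeries ℂ) * t).coeff m = k * t.coeff m := by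
  rw [← map_natCast (HahnSeries.C : ℂ →+* LaurentSeries ℂ), HahnSeries.C_apply,
    HahnSeries.coeff_single_mul, sub_zero]

/-- The leading term is a `p`-th power in the critical radius. -/
private theorem exists_pow_of_critical (hσ : Mover K σ) {Z x : LaurentSeries ℂ} {a : ℂ}
    (h : Killed K σ Z) (ha : rp P ^ p < P.abv a) (ha1 : P.abv a < 1) (hx : SerIn P.ring x)
    (eZ : Z = 1 + HahnSeries.C a * x) (hcrit : P.abv a ^ (p + 1) = rp P ^ p) :
    ∃ s, red (P := P) x = s ^ p := by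
  have ha0 : a ≠ 0 := (P.abv.pos_iff).mp ((pow_nonneg rp_nonneg p).trans_lt ha)
  set b := σ a / a with hb
  have hbR : b ∈ P.ring := by
    rw [P.mem_ring, hb, map_div₀, hσ.abv, div_self (P.abv.ne_zero ha0)]
  have hxs : SerIn P.ring (coeffMap σ.toRingHom x) := serIn_coeffMap hσ.abv hx
  obtain ⟨r, hr⟩ := exists_red_sub_eq_pow h.2 ha ha1 hx ((SerIn.C hbR).mul hxs) eZ (by
    rw [eZ, map_add, map_one, map_mul, coeffMap_C', ← mul_assoc, ← map_mul HahnSeries.C, hb,
      mul_div_cancel₀ _ ha0])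
  refine exists_pow_of_smul K (κ := rd ⟨b, hbR⟩ - 1) ?_ (r := r) ?_
  · rw [← map_one (rd : P.ring →+* ResField P), ← map_sub, Ne, rd_eq_zero_iff]
    exact not_fixed_of_critical hσ hcrit
  · rw [← hr, red_mul (SerIn.C hbR) hxs, red_C hbR, red_coeffMap hσ.abv hσ.res hx, map_sub,
      map_one]
    ring

/-- The error of the first order expansion at `1 + a x`, where `d = |a|` and `τ ^ p = d`. -/
private def firstOrderErr (P : CPlace p) (d τ : ℝ) : ℝ :=
  max (max (rp P ^ p) (P.abv p * d)) (max (d ^ (p + 1)) (P.abv p * τ ^ 2))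

/-- If the product of `Z = 1 + a x` with its norm is deeply a `p`-th power, the first order term
is near `powSer p v + p v` for a small `v`. -/
private theorem exists_first_order {Z x : LaurentSeries ℂ} {a : ℂ} {τ : ℝ}
    (h : PowApprox K p (rp P ^ p) (expandL p Z * nrm p Z)) (hτ : rp P < τ) (hτ1 : τ < 1)
    (hτd : τ ^ p = P.abv a) (hx : SerIn P.ring x) (eZ : Z = 1 + HahnSeries.C a * x) :
    ∃ v, P.SerLE τ v ∧ P.SerLE (firstOrderErr P (P.abv a) τ)
      (HahnSeries.C a * expandL p x + HahnSeries.C (a ^ p) * nrm p x - powSer p v -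
        (p : LaurentSeries ℂ) * v) := by
  obtain ⟨s, hs, hsle⟩ := h
  set d := P.abv a with hd
  have hτ0 : 0 < τ := rp_pos.trans hτ
  have hd0 : 0 < d := hτd ▸ pow_pos hτ0 p
  have hd1 : d ≤ 1 := hτd ▸ pow_le_one₀ hτ0.le hτ1.le
  have hRd : rp P ^ p ≤ d := hτd ▸ pow_le_pow_left₀ rp_nonneg hτ.le p
  have hpp : 0 < P.abv (p : ℂ) := P.abv.pos (Nat.cast_ne_zero.mpr hp.out.ne_zero)
  have hNx : SerIn P.ring (nrm p x) := serIn_nrm zetaC_mem_ring hx
  set A := HahnSeries.C a * expandL p x + HahnSeries.C (a ^ p) * nrm p x with hA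
  set err := nrm p Z - 1 - HahnSeries.C (a ^ p) * nrm p x with herr
  have herrle : P.SerLE (P.abv p * d) err := by
    rw [herr, eZ]; exact serLE_nrm_one_add hd1 hx
  set M := firstOrderErr P d τ with hM
  have hX : P.SerLE M (expandL p Z * nrm p Z - 1 - A) := by
    rw [show nrm p Z = 1 + HahnSeries.C (a ^ p) * nrm p x + err by rw [herr]; ring, eZ, map_add,
      map_one, map_mul, HahnSeries.C_apply, BAD.expandL_single, mul_zero, ← HahnSeries.C_apply,
      show (1 + HahnSeries.C a * expandL p x) * (1 + HahnSeries.C (a ^ p) * nrm p x + err) - 1 - A =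
        err * (1 + HahnSeries.C a * expandL p x) +
          HahnSeries.C (a * a ^ p) * (expandL p x * nrm p x) by rw [hA, map_mul]; ring]
    refine ((herrle.mul_serIn (mul_nonneg hpp.le hd0.le) (SerIn.one.add ((SerIn.C hd1).mul
      (BAD.expandL_serIn hx)))).mono (le_max_of_le_left (le_max_right _ _))).add
      ((CPlace.SerLE.C_mul (c := d ^ (p + 1)) ?_ ((BAD.expandL_serIn hx).mul hNx)).mono
        (le_max_of_le_right (le_max_left _ _)))
    rw [← pow_succ', map_pow]
  have hs1 : P.SerLE (τ ^ p) (s ^ p - 1) := by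
    rw [hτd, show s ^ p - 1 = (expandL p Z * nrm p Z - 1 - A) + A +
      -(expandL p Z * nrm p Z - s ^ p) by ring]
    refine ((hX.mono ?_).add (P := P) ?_).add ((hsle.mono hRd).neg)
    · refine max_le (max_le hRd (mul_le_of_le_one_left hd0.le (P.abv_natCast_le_one p)))
        (max_le (pow_le_of_le_one hd0.le hd1 (by omega)) ?_)
      rw [← hτd]
      refine le_trans ?_ (abv_p_mul_lt_pow hτ).le
      exact mul_le_mul_of_nonneg_left (pow_le_of_le_one hτ0.le hτ1.le two_ne_zero) hpp.le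
    · rw [hA]
      exact (CPlace.SerLE.C_mul le_rfl (BAD.expandL_serIn hx)).add
        ((CPlace.SerLE.C_mul (by rw [map_pow]; exact pow_le_of_le_one hd0.le hd1 hp.out.ne_zero)
          hNx))
  have hh := serLE_sub_one_of_pow hs hτ.le hs1
  refine ⟨s - 1, hh, ?_⟩
  set v := s - 1 with hv
  obtain ⟨q, hq, hqe⟩ := exists_binom_one (hh.serIn hτ1.le)
  have hsv : s = 1 + v := by rw [hv]; ring
  rw [show A - powSer p v - (p : LaurentSeries ℂ) * v =
    -(expandL p Z * nrm p Z - 1 - A) + (expandL p Z * nrm p Z - s ^ p) +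
      (v ^ p - powSer p v) + (p : LaurentSeries ℂ) * (v ^ 2 * q) by rw [hsv, hqe]; ring]
  refine ((hX.neg.add (hsle.mono (le_max_of_le_left (le_max_left _ _)))).add
    ((serLE_pow_sub_powSer (hs.sub Fine.one) hτ0.le hh).mono ?_)).add
    ((serLE_natCast_mul p ((pow_two v ▸ CPlace.SerLE.mul hτ0.le hτ0.le hh hh).mul_serIn
      (mul_nonneg hτ0.le hτ0.le) hq)).mono ?_)
  · rw [hτd]; exact le_max_of_le_left (le_max_right _ _)
  · rw [← pow_two]; exact le_max_of_le_right (le_max_right _ _)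

/-- The residue of `v / α` is the `p`-th root of that of `x` read off at the multiples of `p`. -/
private theorem abv_pow_div_sub_lt {α : ℂ} {x v : LaurentSeries ℂ} (hτ : rp P < P.abv α)
    (hτ1 : P.abv α < 1) (hx : SerIn P.ring x) (hv : P.SerLE (P.abv α) v) {k : ℤ} {M : ℝ}
    (hM : M < P.abv (α ^ p))
    (h : P.abv (α ^ p * x.coeff k + (α ^ p) ^ p * (nrm p x).coeff ((p : ℤ) * k) - v.coeff k ^ p -
      p * v.coeff ((p : ℤ) * k)) ≤ M) :
    P.abv ((v.coeff k / α) ^ p - x.coeff k) < 1 := by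
  set a := α ^ p with ha
  set τ := P.abv α with hτdef
  have hτd : τ ^ p = P.abv a := by rw [ha, map_pow]
  have hτ0 : 0 < τ := rp_pos.trans hτ
  have hd0 : 0 < P.abv a := hτd ▸ pow_pos hτ0 p
  have ha0 : a ≠ 0 := (P.abv.pos_iff).mp hd0
  have hpp : 0 ≤ P.abv (p : ℂ) := P.abv.nonneg _
  set z := a * x.coeff k - v.coeff k ^ p with hz
  have h2 : P.abv z < P.abv a := by
    rw [hz, show a * x.coeff k - v.coeff k ^ p = (a * x.coeff k + a ^ p * (nrm p x).coeff _ -
      v.coeff k ^ p - p * v.coeff ((p : ℤ) * k)) + (-(a ^ p * (nrm p x).coeff ((p : ℤ) * k)) +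
        p * v.coeff ((p : ℤ) * k)) by ring]
    refine P.add_lt (h.trans_lt hM) (P.add_lt ?_ ?_)
    · rw [AbsoluteValue.map_neg, map_mul, map_pow]
      exact (mul_le_of_le_one_right (by positivity) (serIn_nrm zetaC_mem_ring hx _)).trans_lt
        (pow_lt_self_of_lt_one₀ hd0 (hτd ▸ pow_lt_one₀ hτ0.le hτ1 hp.out.ne_zero) hp.out.one_lt)
    · rw [map_mul, ← hτd]
      exact (mul_le_mul_of_nonneg_left (hv _) hpp).trans_lt (abv_p_mul_lt_pow hτ)
  rw [div_pow, ← ha, show v.coeff k ^ p / a - x.coeff k = -z / a by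
    rw [hz]; field_simp; ring, map_div₀, AbsoluteValue.map_neg, div_lt_one hd0]
  exact h2

/-- Off the critical radius the norm and the derivative are of different size. -/
private theorem ne_of_not_critical {d τ : ℝ} (hd0 : 0 < d) (hτd : τ ^ p = d)
    (hcrit : d ^ (p + 1) ≠ rp P ^ p) : P.abv p * τ ≠ d ^ p := by
  intro heq
  refine hcrit ((pow_left_inj₀ (n := p - 1) (by positivity) (pow_nonneg rp_nonneg p)
    (by have := hp.out.two_le; omega)).mp ?_)
  show (d ^ (p + 1)) ^ (p - 1) = (rp P ^ p) ^ (p - 1)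
  rw [← pow_mul (rp P), mul_comm p (p - 1), pow_mul (rp P), rp_pow, ← pow_mul]
  have h2 : (P.abv p * τ) ^ p = (d ^ p) ^ p := by rw [heq]
  rw [mul_pow, hτd, ← pow_mul] at h2
  have h3 : d * d ^ ((p + 1) * (p - 1)) = d ^ (p * p) := by
    rw [← pow_succ']
    congr 1
    obtain ⟨j, rfl⟩ : ∃ j, p = j + 1 := ⟨p - 1, by have := hp.out.pos; omega⟩
    simp only [Nat.add_sub_cancel]; ring
  refine mul_left_cancel₀ hd0.ne' ?_
  rw [h3, ← h2]; ring

/-- The leading term is a `p`-th power away from the critical radius. -/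
private theorem exists_pow_of_not_critical {Z x : LaurentSeries ℂ} {a : ℂ}
    (h : PowApprox K p (rp P ^ p) (expandL p Z * nrm p Z)) (ha : rp P ^ p < P.abv a)
    (ha1 : P.abv a < 1) (hx : SerIn P.ring x) (eZ : Z = 1 + HahnSeries.C a * x)
    (hcrit : P.abv a ^ (p + 1) ≠ rp P ^ p) : ∃ s, red (P := P) x = s ^ p := by
  obtain ⟨α, rfl⟩ := IsAlgClosed.exists_pow_nat_eq a hp.out.pos
  set τ := P.abv α with hτdef
  have hτd : τ ^ p = P.abv (α ^ p) := (map_pow _ _ _).symm
  have hτ : rp P < τ := lt_of_pow_lt_pow_left₀ p (P.abv.nonneg _) (hτd ▸ ha)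
  have hτ0 : 0 < τ := rp_pos.trans hτ
  have hτ1 : τ < 1 := lt_of_pow_lt_pow_left₀ p zero_le_one (by rw [one_pow, hτd]; exact ha1)
  set d := P.abv (α ^ p)
  have hd0 : 0 < d := hτd ▸ pow_pos hτ0 p
  have hpp : 0 < P.abv (p : ℂ) := P.abv.pos (Nat.cast_ne_zero.mpr hp.out.ne_zero)
  have hNx : SerIn P.ring (nrm p x) := serIn_nrm zetaC_mem_ring hx
  obtain ⟨v, hh, hrel⟩ := exists_first_order h hτ hτ1 hτd hx eZ
  have hk : ∀ m, v.coeff m / α ∈ P.ring := fun m => by
    rw [P.mem_ring, map_div₀, div_le_one hτ0]; exact hh m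
  have hRlt : rp P ^ p < d ∧ P.abv p * d < d ∧ d ^ (p + 1) < d ∧ P.abv p * τ ^ 2 < d := by
    refine ⟨ha, mul_lt_of_lt_one_left hd0 P.lt_one,
      pow_lt_self_of_lt_one₀ hd0 ha1 (by have := hp.out.pos; omega), ?_⟩
    rw [← hτd]
    refine lt_of_le_of_lt ?_ (abv_p_mul_lt_pow hτ)
    exact mul_le_mul_of_nonneg_left (pow_le_of_le_one hτ0.le hτ1.le two_ne_zero) hpp.le
  have hcoeff : ∀ m, (HahnSeries.C (α ^ p) * expandL p x +
      HahnSeries.C ((α ^ p) ^ p) * nrm p x).coeff m =
        α ^ p * (expandL p x).coeff m + (α ^ p) ^ p * (nrm p x).coeff m := fun m => by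
    simp [HahnSeries.C_apply]
  refine exists_pow_of_supp K fun m hm => ?_
  rw [coeff_red hx]
  have h1 := hrel m
  rw [HahnSeries.coeff_sub, HahnSeries.coeff_sub, hcoeff, expandL_coeff_of_not_dvd p _ hm,
    coeff_powSer_of_not_dvd _ hm, coeff_natCast_mul, mul_zero, zero_add, sub_zero] at h1
  rcases lt_or_gt_of_ne (ne_of_not_critical (P := P) hd0 hτd hcrit) with hlt | hlt
  · -- the norm dominates
    have h2 : P.abv ((nrm p x).coeff m) < 1 := by
      by_contra hge
      push Not at hge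
      have h3 : P.abv ((α ^ p) ^ p * (nrm p x).coeff m) < d ^ p := by
        rw [show (α ^ p) ^ p * (nrm p x).coeff m =
          ((α ^ p) ^ p * (nrm p x).coeff m - p * v.coeff m) + p * v.coeff m by ring]
        refine P.add_lt (h1.trans_lt (max_lt (max_lt ?_ ?_) (max_lt ?_ ?_))) ?_
        · exact (abv_p_mul_rp (P := P) ▸ mul_lt_mul_of_pos_left hτ hpp).trans hlt
        · refine lt_of_le_of_lt ?_ hlt
          exact mul_le_mul_of_nonneg_left
            (hτd.symm.le.trans (pow_le_of_le_one hτ0.le hτ1.le hp.out.ne_zero)) hpp.le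
        · exact pow_lt_pow_right_of_lt_one₀ hd0 ha1 (by omega)
        · refine lt_of_le_of_lt ?_ hlt
          exact mul_le_mul_of_nonneg_left (pow_le_of_le_one hτ0.le hτ1.le two_ne_zero) hpp.le
        · rw [map_mul]; exact (mul_le_mul_of_nonneg_left (hh m) hpp.le).trans_lt hlt
      rw [map_mul, map_pow] at h3
      exact absurd h3 (not_lt.mpr (le_mul_of_one_le_right (by positivity) hge))
    have h4 := coeff_red_nrm (P := P) hx m
    rw [coeff_red hNx, coeff_red hx, rd_eq_zero_iff.mpr h2] at h4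
    exact eq_zero_of_pow_eq_zero h4.symm
  · -- the derivative dominates
    have h2 : P.abv (v.coeff m / α) < 1 := by
      rw [map_div₀, div_lt_one hτ0]
      by_contra hge
      push Not at hge
      have h3 : P.abv ((p : ℂ) * v.coeff m) < P.abv p * τ := by
        rw [show (p : ℂ) * v.coeff m = -((α ^ p) ^ p * (nrm p x).coeff m - p * v.coeff m) +
          (α ^ p) ^ p * (nrm p x).coeff m by ring]
        refine P.add_lt ?_ ?_
        · rw [AbsoluteValue.map_neg]
          refine h1.trans_lt (max_lt (max_lt ?_ ?_) (max_lt ?_ ?_))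
          · exact abv_p_mul_rp (P := P) ▸ mul_lt_mul_of_pos_left hτ hpp
          · refine mul_lt_mul_of_pos_left ?_ hpp
            exact hτd.symm.trans_lt (pow_lt_self_of_lt_one₀ hτ0 hτ1 hp.out.one_lt)
          · exact lt_of_le_of_lt (pow_le_pow_of_le_one hd0.le ha1.le (Nat.le_succ p)) hlt
          · refine mul_lt_mul_of_pos_left ?_ hpp
            exact pow_lt_self_of_lt_one₀ hτ0 hτ1 one_lt_two
        · rw [map_mul, map_pow]
          exact (mul_le_of_le_one_right (by positivity) (hNx m)).trans_lt hlt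
      rw [map_mul] at h3
      exact absurd h3 (not_lt.mpr (mul_le_mul_of_nonneg_left hge hpp.le))
    have h3 := hrel ((p : ℤ) * m)
    rw [HahnSeries.coeff_sub, HahnSeries.coeff_sub, hcoeff, expandL_coeff_mul, coeff_powSer_mul,
      coeff_natCast_mul] at h3
    have h4 : rd (⟨_, hk m⟩ : P.ring) ^ p = rd (⟨x.coeff m, hx m⟩ : P.ring) := by
      rw [← map_pow, ← sub_eq_zero, ← map_sub, rd_eq_zero_iff]
      exact abv_pow_div_sub_lt hτ hτ1 hx hh
        (max_lt (max_lt hRlt.1 hRlt.2.1) (max_lt hRlt.2.2.1 hRlt.2.2.2)) h3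
    rw [← h4, rd_eq_zero_iff.mpr h2, zero_pow hp.out.ne_zero]

theorem killed_sieve (hσ : Mover K σ) : Sieve K (Killed K σ) where
  mul Z g _ hg h := killed_mul hσ hg h
  lead Z x a _ h ha ha1 hx eZ := by
    by_cases hcrit : P.abv a ^ (p + 1) = rp P ^ p
    · exact exists_pow_of_critical hσ h ha ha1 hx eZ hcrit
    · exact exists_pow_of_not_critical h.1 ha ha1 hx eZ hcrit

/-- **A killed series is a `p`-th power.** -/
theorem powApprox_of_killed (hσ : Mover K σ) {y : LaurentSeries ℂ} (hy : Fine K y)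
    (huy : P.UnitCoeff y) (h : Killed K σ y) : PowApprox K p (rp P ^ p) y := by
  refine (killed_sieve hσ).near hy huy h ?_ ?_
  · obtain ⟨s, hs, hle⟩ := h.1
    have hN : SerIn P.ring (nrm p y) := serIn_nrm zetaC_mem_ring hy.serIn
    have h1 : expandL p (red (P := P) y) * red (nrm p y) = red s ^ p := by
      rw [← red_expandL hy.serIn, ← red_mul (BAD.expandL_serIn hy.serIn) hN, ← red_pow hs.serIn,
        red_eq_red_iff ((BAD.expandL_serIn hy.serIn).mul hN) (hs.serIn.pow p)]
      exact fun k => (hle k).trans_lt (pow_lt_one₀ rp_nonneg rp_lt_one hp.out.ne_zero)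
    obtain ⟨u, hu⟩ := expand_pow_surj K (red (P := P) y)
    have hy0 : red (P := P) y ≠ 0 := (red_ne_zero_iff hy.serIn).mpr huy
    have hu0 : u ^ p ≠ 0 := by
      rw [← hu]; exact (map_ne_zero_iff _ (BAD.expandL_injective p)).mpr hy0
    have h2 : red (P := P) (nrm p y) = (red s / u) ^ p := by
      rw [div_pow, eq_div_iff hu0, mul_comm, ← hu, h1]
    refine exists_pow_of_supp K fun m hm => ?_
    have h3 := coeff_red_nrm (P := P) hy.serIn m
    rw [h2, coeff_eq_zero_of_pow _ hm] at h3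
    exact eq_zero_of_pow_eq_zero h3.symm
  intro Z τ hZ hQ hτ hτ1 hτ2 hle
  obtain ⟨s, hs, hsle⟩ := hQ.1
  have hτ0 : 0 < τ := rp_pos.trans hτ
  set d := τ ^ p with hd
  have hd1 : d ≤ 1 := pow_le_one₀ hτ0.le hτ1.le
  have hd0 : 0 ≤ d := pow_nonneg hτ0.le p
  have hdd : max (P.abv p * d) (d ^ p) ≤ rp P ^ p := by
    refine max_le ?_ ?_
    · rw [← abv_p_mul_rp]
      exact mul_le_mul_of_nonneg_left ((pow_le_pow_of_le_one hτ0.le hτ1.le hp.out.two_le).trans
        hτ2.le) (P.abv.nonneg _)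
    · rw [hd, ← hτ2, ← pow_mul, ← pow_mul, mul_comm 2 p]
      exact pow_le_pow_of_le_one hτ0.le hτ1.le (Nat.mul_le_mul_left p hp.out.two_le)
  set e := Z - 1 with he
  have hNle : P.SerLE (rp P ^ p) (nrm p Z - 1) := (serLE_nrm_sub_one hZ hd0 hd1 hle).mono hdd
  have hΦle : P.SerLE d (expandL p e) := BAD.serLE_expandL hd0 hle
  have hX : P.SerLE (rp P ^ p) (expandL p Z * nrm p Z - 1 - expandL p e) := by
    rw [show expandL p Z = 1 + expandL p e by rw [he, map_sub, map_one]; ring,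
      show (1 + expandL p e) * nrm p Z - 1 - expandL p e = (1 + expandL p e) * (nrm p Z - 1) by
        ring]
    exact CPlace.SerLE.serIn_mul (pow_nonneg rp_nonneg p) (SerIn.one.add (hΦle.serIn hd1)) hNle
  obtain ⟨hvle, hrel⟩ := serLE_root_rel hs hτ.le hτ1.le hτ2 hX hΦle hsle
  set v := s - 1
  have hvF : Fine K v := hs.sub Fine.one
  have hpc : ∀ (t : LaurentSeries ℂ) m, ((p : LaurentSeries ℂ) * t).coeff m = p * t.coeff m :=
      fun t m => by
    rw [← map_natCast (HahnSeries.C : ℂ →+* LaurentSeries ℂ), HahnSeries.C_apply,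
      HahnSeries.coeff_single_mul, sub_zero]
  refine powApprox_of_powSer (w := BAD.contractL p v) ?_ hτ2.le hτ0.le (fun k => hvle _) fun m => ?_
  · obtain ⟨S, hS, hin⟩ := hvF
    exact ⟨S, hS, serIn_contractL hin⟩
  have h1 := hrel ((p : ℤ) * m)
  rw [HahnSeries.coeff_sub, HahnSeries.coeff_sub, expandL_coeff_mul, coeff_powSer_mul, hpc] at h1
  rw [HahnSeries.coeff_sub, HahnSeries.coeff_sub, hpc, BAD.coeff_contractL]
  by_cases hm : (p : ℤ) ∣ m
  · obtain ⟨k, rfl⟩ := hm
    rw [coeff_powSer_mul, BAD.coeff_contractL]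
    exact h1
  · rw [coeff_powSer_of_not_dvd _ hm, sub_zero]
    have h2 := hrel m
    rw [HahnSeries.coeff_sub, HahnSeries.coeff_sub, expandL_coeff_of_not_dvd p _ hm,
      coeff_powSer_of_not_dvd _ hm, hpc, sub_zero, zero_sub, AbsoluteValue.map_neg, map_mul,
      ← abv_p_mul_rp] at h2
    have h3 : P.abv (v.coeff m) ^ p ≤ rp P ^ p := pow_le_pow_left₀ (P.abv.nonneg _)
      (le_of_mul_le_mul_left h2 (P.abv.pos (Nat.cast_ne_zero.mpr hp.out.ne_zero))) p
    have h4 := P.add_le h1 (show P.abv (v.coeff m ^ p) ≤ rp P ^ p by rwa [map_pow])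
    refine le_of_eq_of_le ?_ h4
    congr 1
    ring

end FermatAgent.PSEMI
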