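import Fermat.Agent.PSEMI.Series.Sieve

/-!
# Series equivalent to their expansion

If `y (q ^ (p ^ N))` and `y` differ by a `p`-th power to within `|ζ - 1| ^ p`, then `y` is one.
-/

set_option autoImplicit false

noncomputable section

namespace FermatAgent.PSEMI

open FermatAgent.ES FermatAgent.Curve.Red
open FermatAgent.BAD (expandL expandL_coeff_mul expandL_coeff_of_not_dvd)

variable {p : ℕ} [hp : Fact p.Prime] {P : CPlace p} {K : Coeffs P} {N : ℕ}

/-- The hypothesis, for `Φ` the expansion by `p ^ N`. -/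
def AlmostFixed (K : Coeffs P) (N : ℕ) (y : LaurentSeries ℂ) : Prop :=
  haveI : NeZero (p ^ N) := ⟨pow_ne_zero N hp.out.ne_zero⟩
  PowApprox K p (rp P ^ p) (expandL (p ^ N) y * y ^ (p - 1))

theorem almostFixed_mul {Z g : LaurentSeries ℂ} (hg : Fine K g)
    (h : AlmostFixed K N Z) : AlmostFixed K N (Z * g ^ p) := by
  have : NeZero (p ^ N) := ⟨pow_ne_zero N hp.out.ne_zero⟩
  unfold AlmostFixed at h ⊢
  rw [map_mul, map_pow, mul_pow, ← pow_mul, mul_comm p (p - 1), pow_mul,
    show expandL (p ^ N) Z * expandL (p ^ N) g ^ p * (Z ^ (p - 1) * (g ^ (p - 1)) ^ p) =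
      expandL (p ^ N) Z * Z ^ (p - 1) * (expandL (p ^ N) g * g ^ (p - 1)) ^ p by ring]
  exact h.mul (pow_nonneg rp_nonneg p)
    ((hg.expandL.mul (hg.pow _)).serIn.pow p)
    (powApprox_pow (hg.expandL.mul (hg.pow _)) (pow_nonneg rp_nonneg p) p)

omit hp in
theorem dvd_of_coeff_expandL_ne (hN : N ≠ 0) {R : Type*} [CommRing R] [NeZero (p ^ N)]
    (s : LaurentSeries R) {m : ℤ} (hm : ¬ (p : ℤ) ∣ m) : (expandL (p ^ N) s).coeff m = 0 :=
  expandL_coeff_of_not_dvd _ _ fun h =>
    hm ((Int.natCast_dvd_natCast.mpr (dvd_pow_self p hN)).trans h)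

theorem exists_pow_sub {K : Coeffs P} {x y : LaurentSeries (ResField P)}
    (hx : ∀ m : ℤ, ¬ (p : ℤ) ∣ m → x.coeff m = 0) {r : LaurentSeries (ResField P)}
    (h : x - y = r ^ p) : ∃ s, y = s ^ p :=
  exists_pow_of_supp K fun m hm => by
    have h1 := congrArg (fun u => u.coeff m) h
    simp only [HahnSeries.coeff_sub, hx m hm, coeff_eq_zero_of_pow r hm, zero_sub, neg_eq_zero]
      at h1
    exact h1

theorem almostFixed_sieve (hN : N ≠ 0) : Sieve K (AlmostFixed K N) where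
  mul Z g _ hg h := almostFixed_mul hg h
  lead Z e a hZ h ha ha1 he eZ := by
    have : NeZero (p ^ N) := ⟨pow_ne_zero N hp.out.ne_zero⟩
    have hΦi : SerIn P.ring (expandL (p ^ N) e) := BAD.expandL_serIn he
    obtain ⟨r, hr⟩ := exists_red_sub_eq_pow (show PowApprox K p _ _ from h) ha ha1 he hΦi eZ
      (by rw [eZ, map_add, map_one, map_mul, HahnSeries.C_apply, BAD.expandL_single, mul_zero,
        ← HahnSeries.C_apply])
    refine exists_pow_sub (K := K) (x := red (P := P) (expandL (p ^ N) e)) (r := r)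
      (fun m hm => ?_) hr
    rw [coeff_red hΦi, rd_eq_zero_iff]
    show P.abv ((expandL (p ^ N) e).coeff m) < 1
    rw [dvd_of_coeff_expandL_ne hN _ hm, map_zero]
    exact one_pos

omit hp in
/-- Induction along division by `Q` on the nonzero integers. -/
private theorem descent_induction {Q : ℕ} (hQ : 2 ≤ Q) {C : ℤ → Prop} (h0 : C 0)
    (hstep : ∀ m, m ≠ 0 → ((Q : ℤ) ∣ m → C (m / Q)) → C m) (m : ℤ) : C m := by
  induction hn : m.natAbs using Nat.strong_induction_on generalizing m with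
  | _ n ih =>
    subst hn
    rcases eq_or_ne m 0 with rfl | hm
    · exact h0
    refine hstep m hm fun ⟨k, hk⟩ => ?_
    subst hk
    rw [Int.mul_ediv_cancel_left _ (by omega : (Q : ℤ) ≠ 0)]
    refine ih k.natAbs ?_ k rfl
    have hk : 0 < k.natAbs := Int.natAbs_pos.mpr (right_ne_zero_of_mul hm)
    rw [Int.natAbs_mul, Int.natAbs_natCast]
    nlinarith

/-- The solution with constant term `w0` of `W m = W (m / Q) - v m`, the first summand being
present for `Q` dividing `m`. -/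
private def descentSol (Q : ℕ) (w0 : ℂ) (v : ℤ → ℂ) (m : ℤ) : ℂ :=
  if _h0 : m = 0 then w0 else
    (if _hd : (Q : ℤ) ∣ m ∧ 2 ≤ Q then descentSol Q w0 v (m / Q) else 0) - v m
termination_by m.natAbs
decreasing_by
  obtain ⟨⟨k, hk⟩, hQ⟩ := _hd
  subst hk
  rw [Int.mul_ediv_cancel_left _ (by omega : (Q : ℤ) ≠ 0), Int.natAbs_mul, Int.natAbs_natCast]
  exact lt_mul_of_one_lt_left (Int.natAbs_pos.mpr (right_ne_zero_of_mul _h0)) hQ

/-- The coefficients of `powSer p s + p s` in terms of those of `s`. -/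
private def frobCoeff (p : ℕ) (f : ℤ → ℂ) (m : ℤ) : ℂ :=
  (if (p : ℤ) ∣ m then f (m / p) ^ p else 0) + p * f m

private theorem coeff_powSer_add (s : LaurentSeries ℂ) (m : ℤ) :
    (powSer p s + (p : LaurentSeries ℂ) * s).coeff m = frobCoeff p s.coeff m := by
  rw [HahnSeries.coeff_add, ← map_natCast (HahnSeries.C : ℂ →+* LaurentSeries ℂ),
    HahnSeries.C_apply, HahnSeries.coeff_single_mul, sub_zero, frobCoeff]
  congr 1
  split_ifs with hd
  · obtain ⟨k, rfl⟩ := hd
    rw [coeff_powSer_mul, Int.mul_ediv_cancel_left _ (Int.natCast_ne_zero.mpr hp.out.ne_zero)]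
  · exact coeff_powSer_of_not_dvd _ hd

/-- The constant term: a small root of `x ^ p + p x = c`. -/
private theorem exists_small_root {τ : ℝ} (hτ : rp P < τ) {c : ℂ} (hc : P.abv c ≤ τ ^ p) :
    ∃ x, P.abv x ≤ τ ∧ x ^ p + p * x = c := by
  have hdeg : ((Polynomial.X : Polynomial ℂ) ^ p + Polynomial.C (p : ℂ) * Polynomial.X -
      Polynomial.C c).degree ≠ 0 := by
    have h1 : (Polynomial.C (p : ℂ) * Polynomial.X - Polynomial.C c).degree <
        ((p : ℕ) : WithBot ℕ) :=
      lt_of_le_of_lt (Polynomial.degree_sub_le _ _) (max_lt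
        ((Polynomial.degree_C_mul_X_le _).trans_lt (by exact_mod_cast hp.out.one_lt))
        (Polynomial.degree_C_le.trans_lt (by exact_mod_cast hp.out.pos)))
    rw [add_sub_assoc, Polynomial.degree_add_eq_left_of_degree_lt (by
      rwa [Polynomial.degree_X_pow]), Polynomial.degree_X_pow]
    exact_mod_cast hp.out.ne_zero
  obtain ⟨x, hx⟩ := IsAlgClosed.exists_root _ hdeg
  simp only [Polynomial.IsRoot.def, Polynomial.eval_sub, Polynomial.eval_add,
    Polynomial.eval_pow, Polynomial.eval_X, Polynomial.eval_mul, Polynomial.eval_C] at hx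
  have hxc : x ^ p + p * x = c := by linear_combination hx
  refine ⟨x, le_of_not_gt fun hlt => ?_, hxc⟩
  have h1 : P.abv ((p : ℂ) * x) < P.abv (x ^ p) := by
    rw [map_mul, map_pow]; exact abv_p_mul_lt_pow (hτ.trans hlt)
  have h2 := P.nonarch (x ^ p + p * x) (-((p : ℂ) * x))
  rw [add_neg_cancel_right, AbsoluteValue.map_neg, hxc] at h2
  rcases le_max_iff.mp h2 with h3 | h3
  · exact absurd (h3.trans hc) (not_le.mpr (by
      rw [map_pow]; exact pow_lt_pow_left₀ hlt (rp_pos.trans hτ).le hp.out.ne_zero))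
  · exact absurd h3 (not_le.mpr h1)

/-- Up to `rp P ^ p` the `p`-th power is additive on small elements. -/
private theorem abv_add_pow_sub_le {τ : ℝ} (hτ1 : τ ≤ 1) (hτ2 : τ ^ 2 ≤ rp P) {a b : ℂ}
    (ha : P.abv a ≤ τ) (hb : P.abv b ≤ τ) : P.abv ((a + b) ^ p - a ^ p - b ^ p) ≤ rp P ^ p := by
  have hτ0 : 0 ≤ τ := (P.abv.nonneg _).trans ha
  obtain ⟨r, hr⟩ := exists_add_pow_prime_eq hp.out (⟨a, ha.trans hτ1⟩ : P.ring) ⟨b, hb.trans hτ1⟩
  have hr' := congrArg Subtype.val hr
  push_cast at hr'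
  rw [show (a + b) ^ p - a ^ p - b ^ p = (p : ℂ) * a * b * r by linear_combination hr', map_mul,
    map_mul, map_mul, ← abv_p_mul_rp, mul_assoc (P.abv (p : ℂ)), mul_assoc]
  refine mul_le_mul_of_nonneg_left ?_ (P.abv.nonneg _)
  refine (mul_le_of_le_one_right (mul_nonneg (P.abv.nonneg _) (P.abv.nonneg _)) r.2).trans ?_
  exact (mul_le_mul ha hb (P.abv.nonneg _) hτ0).trans (by rwa [← pow_two])

/-- If `W` solves the recursion then its image solves the one for the image of `v` up to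
`rp P ^ p`. -/
private theorem frobCoeff_descent (hN : N ≠ 0) {τ : ℝ} (hτ1 : τ ≤ 1) (hτ2 : τ ^ 2 ≤ rp P)
    {W v : ℤ → ℂ} (hWle : ∀ m, P.abv (W m) ≤ τ)
    (hW : ∀ m : ℤ, m ≠ 0 →
      W m = (if ((p ^ N : ℕ) : ℤ) ∣ m then W (m / (p ^ N : ℕ)) else 0) - v m)
    {m : ℤ} (hm : m ≠ 0) :
    P.abv ((if ((p ^ N : ℕ) : ℤ) ∣ m then frobCoeff p W (m / (p ^ N : ℕ)) else 0) -
      frobCoeff p W m - frobCoeff p v m) ≤ rp P ^ p := by
  set Q : ℕ := p ^ N with hQdef
  have hp' : (p : ℤ) ≠ 0 := Int.natCast_ne_zero.mpr hp.out.ne_zero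
  have hQ' : (Q : ℤ) ≠ 0 := Int.natCast_ne_zero.mpr (pow_ne_zero N hp.out.ne_zero)
  have hpQ : (p : ℤ) ∣ Q := Int.natCast_dvd_natCast.mpr (dvd_pow_self p hN)
  have e1 : v m = (if (Q : ℤ) ∣ m then W (m / Q) else 0) - W m := by rw [hW m hm]; ring
  by_cases hd : (p : ℤ) ∣ m
  · obtain ⟨k, rfl⟩ := hd
    have hk : k ≠ 0 := right_ne_zero_of_mul hm
    set c := if (Q : ℤ) ∣ k then W (k / Q) else 0 with hc
    have e2 : v k = c - W k := by rw [hW _ hk]; simp only [c]; ring
    have hswap : (if (Q : ℤ) ∣ p * k then frobCoeff p W (p * k / Q) else 0) =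
        c ^ p + p * (if (Q : ℤ) ∣ p * k then W (p * k / Q) else 0) := by
      simp only [c, frobCoeff]
      by_cases hQm : (Q : ℤ) ∣ (p : ℤ) * k
      · rw [if_pos hQm, if_pos hQm]
        congr 1
        by_cases hQk : (Q : ℤ) ∣ k
        · obtain ⟨j, rfl⟩ := hQk
          rw [if_pos (dvd_mul_right _ _), Int.mul_ediv_cancel_left _ hQ', mul_left_comm,
            Int.mul_ediv_cancel_left _ hQ', if_pos (dvd_mul_right _ _),
            Int.mul_ediv_cancel_left _ hp']
        · rw [if_neg hQk, zero_pow hp.out.ne_zero, if_neg]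
          rintro ⟨j, hj⟩
          refine hQk ⟨j, ?_⟩
          obtain ⟨l, hl⟩ := hQm
          rw [hl, Int.mul_ediv_cancel_left _ hQ'] at hj
          rw [hj] at hl
          exact mul_left_cancel₀ hp' (by linear_combination hl)
      · rw [if_neg hQm, if_neg hQm, if_neg, zero_pow hp.out.ne_zero, mul_zero, add_zero]
        exact fun hQk => hQm (hQk.mul_left _)
    rw [hswap]
    simp only [frobCoeff, if_pos (dvd_mul_right _ _), Int.mul_ediv_cancel_left _ hp', e1, e2]
    have hcle : P.abv c ≤ τ := by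
      simp only [c]; split_ifs
      · exact hWle _
      · rw [map_zero]; exact (P.abv.nonneg _).trans (hWle 0)
    have := abv_add_pow_sub_le hτ1 hτ2 (a := c - W k) (b := W k) (by
      rw [sub_eq_add_neg]; exact P.add_le hcle (by rw [AbsoluteValue.map_neg]; exact hWle _))
      (hWle _)
    rw [sub_add_cancel] at this
    refine le_of_eq_of_le ?_ this
    congr 1
    ring
  · simp only [frobCoeff, if_neg hd, if_neg fun h => hd (hpQ.trans h), e1]
    ring_nf
    simpa using pow_nonneg (rp_nonneg (P := P)) p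

/-- Where `W ^ p + p W` is small, a large value of `W` comes from a larger one at `x / p`. -/
private theorem dvd_and_abv_pow_eq {W : ℤ → ℂ} {x : ℤ}
    (h : P.abv (frobCoeff p W x) ≤ rp P ^ p) (hbig : rp P < P.abv (W x)) :
    (p : ℤ) ∣ x ∧ P.abv (W (x / p)) ^ p = P.abv p * P.abv (W x) := by
  have hlt : rp P ^ p < P.abv ((p : ℂ) * W x) := by
    rw [map_mul, ← abv_p_mul_rp]
    exact mul_lt_mul_of_pos_left hbig (P.abv.pos (Nat.cast_ne_zero.mpr hp.out.ne_zero))
  unfold frobCoeff at h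
  set A := if (p : ℤ) ∣ x then W (x / p) ^ p else 0 with hA
  have heq : P.abv A = P.abv ((p : ℂ) * W x) := by
    refine le_antisymm ?_ ?_
    · have := P.add_le (x := A + (p : ℂ) * W x) (y := -((p : ℂ) * W x))
        (h.trans hlt.le) (by rw [AbsoluteValue.map_neg])
      rwa [add_neg_cancel_right] at this
    · by_contra hA'
      push Not at hA'
      have := P.nonarch (A + (p : ℂ) * W x) (-A)
      rw [add_neg_cancel_comm, AbsoluteValue.map_neg] at this
      exact absurd this (not_le.mpr (max_lt (h.trans_lt hlt) hA'))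
  by_cases hd : (p : ℤ) ∣ x
  · simp only [A, if_pos hd, map_pow, map_mul] at heq
    exact ⟨hd, heq⟩
  · simp only [A, if_neg hd, map_zero] at heq
    exact absurd heq.symm ((lt_of_le_of_lt (pow_nonneg rp_nonneg p) hlt).ne')

/-- A solution of the recursion which is almost killed is small below the supports. -/
private theorem abv_le_rp_of_lt (hN : N ≠ 0) {W v : ℤ → ℂ} {B : ℕ}
    (hW : ∀ m : ℤ, m ≠ 0 →
      W m = (if ((p ^ N : ℕ) : ℤ) ∣ m then W (m / (p ^ N : ℕ)) else 0) - v m)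
    (hv : ∀ m : ℤ, m < -(B : ℤ) → v m = 0)
    (hsmall : ∀ m : ℤ, m < -(B : ℤ) → P.abv (frobCoeff p W m) ≤ rp P ^ p)
    {m : ℤ} (hm : m < -((p ^ N * (B + 1) : ℕ) : ℤ)) : P.abv (W m) ≤ rp P := by
  by_contra hbig
  push Not at hbig
  have hQ1 : 1 < p ^ N := Nat.one_lt_pow hN hp.out.one_lt
  have hchain : ∀ i ≤ N, ((p : ℤ) ^ i ∣ m) ∧ rp P < P.abv (W (m / (p : ℤ) ^ i)) ∧
      (P.abv (W (m / (p : ℤ) ^ i)) / rp P) ^ p ^ i = P.abv (W m) / rp P := by
    intro i hi
    induction i with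
    | zero => simp [hbig]
    | succ i ih =>
      obtain ⟨hdv, hb, hpow⟩ := ih (by omega)
      obtain ⟨k, hk⟩ := hdv
      have hpi : (0 : ℤ) < (p : ℤ) ^ i := pow_pos (Int.natCast_pos.mpr hp.out.pos) i
      rw [hk, Int.mul_ediv_cancel_left _ hpi.ne'] at hb hpow
      have hkB : k < -(B : ℤ) := by
        have h1 : (p : ℤ) ^ i ≤ (p : ℤ) ^ N :=
          pow_le_pow_right₀ (by exact_mod_cast hp.out.one_le) (by omega)
        push_cast at hm
        nlinarith
      obtain ⟨⟨l, hl⟩, hl2⟩ := dvd_and_abv_pow_eq (hsmall k hkB) hb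
      rw [hl, Int.mul_ediv_cancel_left _ (Int.natCast_ne_zero.mpr hp.out.ne_zero)] at hl2
      have hdiv : m / (p : ℤ) ^ (i + 1) = l := by
        rw [hk, hl, pow_succ, ← mul_assoc, Int.mul_ediv_cancel_left _ (mul_ne_zero hpi.ne'
          (Int.natCast_ne_zero.mpr hp.out.ne_zero))]
      have hratio : (P.abv (W l) / rp P) ^ p = P.abv (W k) / rp P := by
        rw [div_pow, hl2, ← abv_p_mul_rp, hl,
          mul_div_mul_left _ _ (P.abv.pos (Nat.cast_ne_zero.mpr hp.out.ne_zero)).ne']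
      refine ⟨⟨l, by rw [hk, hl]; ring⟩, ?_, ?_⟩
      · rw [hdiv]
        have h1 : (1 : ℝ) < (P.abv (W l) / rp P) ^ p := by
          rw [hratio, lt_div_iff₀ rp_pos, one_mul]; exact hb
        have := (one_lt_pow_iff_of_nonneg (div_nonneg (P.abv.nonneg _) rp_nonneg)
          hp.out.ne_zero).mp h1
        rwa [lt_div_iff₀ rp_pos, one_mul] at this
      · rw [hdiv, pow_succ' p i, pow_mul, hratio, hpow, ← hk]
  obtain ⟨hdv, -, hpow⟩ := hchain N le_rfl
  rw [← Nat.cast_pow] at hdv hpow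
  have hvm : v m = 0 := hv m (by push_cast at hm; nlinarith)
  have hm0 : m ≠ 0 := by intro h0; subst h0; push_cast at hm; nlinarith
  have hWm := hW m hm0
  rw [if_pos hdv, hvm, sub_zero] at hWm
  rw [← hWm] at hpow
  have hr : 1 < P.abv (W m) / rp P := by rw [lt_div_iff₀ rp_pos, one_mul]; exact hbig
  exact absurd hpow (lt_self_pow₀ hr hQ1).ne'

/-- Cutting off small values changes the image by at most `rp P ^ p`. -/
private theorem frobCoeff_sub_le {W W' : ℤ → ℂ}
    (h : ∀ x, W' x = W x ∨ W' x = 0 ∧ P.abv (W x) ≤ rp P) (m : ℤ) :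
    P.abv (frobCoeff p W m - frobCoeff p W' m) ≤ rp P ^ p := by
  simp only [frobCoeff]
  rw [show ((if (p : ℤ) ∣ m then W (m / p) ^ p else 0) + (p : ℂ) * W m) -
    ((if (p : ℤ) ∣ m then W' (m / p) ^ p else 0) + (p : ℂ) * W' m) =
    (if (p : ℤ) ∣ m then W (m / p) ^ p - W' (m / p) ^ p else 0) + (p : ℂ) * (W m - W' m) by
      split_ifs <;> ring]
  have hR0 : (0 : ℝ) ≤ rp P ^ p := pow_nonneg rp_nonneg p
  refine P.add_le ?_ ?_
  · split_ifs with hd
    · rcases h (m / p) with hx | ⟨hx, hle⟩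
      · rw [hx, sub_self, map_zero]; exact hR0
      · rw [hx, zero_pow hp.out.ne_zero, sub_zero, map_pow]
        exact pow_le_pow_left₀ (P.abv.nonneg _) hle p
    · rw [map_zero]; exact hR0
  · rw [map_mul, ← abv_p_mul_rp]
    refine mul_le_mul_of_nonneg_left ?_ (P.abv.nonneg _)
    rcases h m with hx | ⟨hx, hle⟩
    · rw [hx, sub_self, map_zero]; exact rp_nonneg
    · rwa [hx, sub_zero]

/-- The congruence `e (q ^ (p ^ N)) - e ≡ v ^ p + p v` gives `e ≡ w ^ p + p w`. -/
theorem exists_powSer_root (hN : N ≠ 0) {τ : ℝ} (hτ : rp P < τ) (hτ2 : τ ^ 2 ≤ rp P)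
    {e v : LaurentSeries ℂ} (hv : Fine K v) (hele : P.SerLE (τ ^ p) e) (hvle : P.SerLE τ v)
    (h : haveI : NeZero (p ^ N) := ⟨pow_ne_zero N hp.out.ne_zero⟩
      P.SerLE (rp P ^ p) (expandL (p ^ N) e - e - powSer p v - (p : LaurentSeries ℂ) * v)) :
    ∃ w, Fine K w ∧ P.SerLE τ w ∧
      P.SerLE (rp P ^ p) (e - powSer p w - (p : LaurentSeries ℂ) * w) := by
  classical
  have hNP : NeZero (p ^ N) := ⟨pow_ne_zero N hp.out.ne_zero⟩
  set Q : ℕ := p ^ N with hQ
  have hQ2 : 2 ≤ Q := hp.out.two_le.trans (Nat.le_self_pow hN p)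
  have hτ0 : 0 < τ := rp_pos.trans hτ
  have hτ1 : τ ≤ 1 := by nlinarith [rp_lt_one (P := P)]
  set G := frobCoeff p with hG
  -- the recursion, starting from the root of the constant term
  obtain ⟨w0, hw0le, hw0⟩ := exists_small_root hτ (hele 0)
  set W := descentSol Q w0 v.coeff
  have hW0 : W 0 = w0 := by simp only [W]; rw [descentSol]; simp
  have hW : ∀ m : ℤ, m ≠ 0 → W m = (if (Q : ℤ) ∣ m then W (m / Q) else 0) - v.coeff m :=
    fun m hm => by simp only [W]; rw [descentSol]; simp [hm, hQ2]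
  have hWle : ∀ m, P.abv (W m) ≤ τ :=
    descent_induction hQ2 (hW0.symm ▸ hw0le) fun m hm ih => by
      rw [hW m hm, sub_eq_add_neg]
      refine P.add_le ?_ (by rw [AbsoluteValue.map_neg]; exact hvle m)
      split_ifs with hd
      · exact ih hd
      · rw [map_zero]; exact hτ0.le
  -- the congruence
  have hrel : ∀ m, P.abv ((if (Q : ℤ) ∣ m then e.coeff (m / Q) else 0) - e.coeff m -
      G v.coeff m) ≤ rp P ^ p := by
    intro m
    refine le_of_eq_of_le ?_ (h m)
    rw [hG, ← coeff_powSer_add, sub_sub (expandL (p ^ N) e - e), HahnSeries.coeff_sub,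
      HahnSeries.coeff_sub]
    congr 2
    split_ifs with hd
    · obtain ⟨k, rfl⟩ := hd
      rw [Int.mul_ediv_cancel_left _ (by omega : (Q : ℤ) ≠ 0)]
      exact congrArg (· - _) (expandL_coeff_mul Q e k).symm
    · exact congrArg (· - _) (expandL_coeff_of_not_dvd Q e hd).symm
  have hD : ∀ m, P.abv (e.coeff m - G W m) ≤ rp P ^ p := by
    refine descent_induction hQ2 ?_ fun m hm ih => ?_
    · simp only [hG, frobCoeff, dvd_zero, if_true, Int.zero_ediv, hW0, hw0, sub_self, map_zero]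
      exact pow_nonneg rp_nonneg p
    have hprev : P.abv (if (Q : ℤ) ∣ m then e.coeff (m / Q) - G W (m / Q) else 0) ≤ rp P ^ p := by
      split_ifs with hd
      · exact ih hd
      · rw [map_zero]; exact pow_nonneg rp_nonneg p
    have := P.add_le (P.add_le (frobCoeff_descent hN hτ1 hτ2 hWle hW hm)
      (by rw [AbsoluteValue.map_neg]; exact hrel m :
        P.abv (-((if (Q : ℤ) ∣ m then e.coeff (m / Q) else 0) - e.coeff m - G v.coeff m)) ≤ _))
      hprev
    refine le_of_eq_of_le ?_ this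
    congr 1
    simp only [hG, ← hQ]
    split_ifs <;> ring
  -- the cut-off
  obtain ⟨B, hBe, hBv⟩ : ∃ B : ℕ, (∀ m : ℤ, m < -(B : ℤ) → e.coeff m = 0) ∧
      ∀ m : ℤ, m < -(B : ℤ) → v.coeff m = 0 := by
    refine ⟨((-e.order).toNat + (-v.order).toNat), fun m hm => ?_, fun m hm => ?_⟩ <;>
      exact HahnSeries.coeff_eq_zero_of_lt_order (by omega)
  have hfar : ∀ m : ℤ, m < -((Q * (B + 1) : ℕ) : ℤ) → P.abv (W m) ≤ rp P := fun m hm =>
    abv_le_rp_of_lt hN hW hBv (fun x hx => by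
      simpa only [hBe x hx, zero_sub, AbsoluteValue.map_neg] using hD x) hm
  -- the series
  obtain ⟨S, hS, hvS⟩ := hv
  set T : Finset ℂ := insert w0 S
  have hT : (T : Set ℂ) ⊆ P.ring := by
    simp only [T, Finset.coe_insert, Set.insert_subset_iff]
    exact ⟨hw0le.trans hτ1, hS⟩
  have hWT : ∀ m, W m ∈ K.R T :=
    descent_induction hQ2 (hW0.symm ▸ K.subset hT (by simp [T])) fun m hm ih => by
      rw [hW m hm]
      refine (K.R T).sub_mem ?_ (K.mono (by simp [T]) (hvS m))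
      split_ifs with hd
      · exact ih hd
      · exact zero_mem _
  set L : ℤ := -((Q * (B + 1) : ℕ) : ℤ)
  let w : LaurentSeries ℂ := HahnSeries.ofSuppBddBelow (fun m => if L ≤ m then W m else 0)
    ⟨L, fun m hm => by
      by_contra hlt
      exact hm (if_neg hlt)⟩
  have hwc : ∀ m, w.coeff m = if L ≤ m then W m else 0 := fun m => rfl
  refine ⟨w, ⟨T, hT, fun m => ?_⟩, fun m => ?_, fun m => ?_⟩
  · rw [hwc]; split_ifs
    · exact hWT m
    · exact zero_mem _
  · rw [hwc]; split_ifs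
    · exact hWle m
    · rw [map_zero]; exact hτ0.le
  · rw [sub_sub, HahnSeries.coeff_sub, coeff_powSer_add]
    have hcut : ∀ x, w.coeff x = W x ∨ w.coeff x = 0 ∧ P.abv (W x) ≤ rp P := fun x => by
      rw [hwc]; split_ifs with hx
      exacts [Or.inl rfl, Or.inr ⟨rfl, hfar x (not_le.mp hx)⟩]
    refine le_of_eq_of_le ?_ (P.add_le (hD m) (frobCoeff_sub_le hcut m))
    congr 1
    simp only [hG]; ring

/-- **A series equivalent to its expansion is a `p`-th power.** -/
theorem powApprox_of_almostFixed (hN : N ≠ 0) {y : LaurentSeries ℂ} (hy : Fine K y)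
    (huy : P.UnitCoeff y) (h : AlmostFixed K N y) : PowApprox K p (rp P ^ p) y := by
  have : NeZero (p ^ N) := ⟨pow_ne_zero N hp.out.ne_zero⟩
  refine (almostFixed_sieve hN).near hy huy h ?_ ?_
  · obtain ⟨s, hs, hle⟩ := (show PowApprox K p _ _ from h)
    have hΦ : SerIn P.ring (expandL (p ^ N) y) := BAD.expandL_serIn hy.serIn
    have h1 : red (P := P) (expandL (p ^ N) y) * red y ^ (p - 1) = red s ^ p := by
      rw [← red_pow hy.serIn, ← red_mul hΦ (hy.serIn.pow _), ← red_pow hs.serIn,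
        red_eq_red_iff (hΦ.mul (hy.serIn.pow _)) (hs.serIn.pow p)]
      exact fun k => (hle k).trans_lt (pow_lt_one₀ rp_nonneg rp_lt_one hp.out.ne_zero)
    have hy0 : red (P := P) y ≠ 0 := (red_ne_zero_iff hy.serIn).mpr huy
    obtain ⟨u, hu⟩ := exists_pow_of_supp K (x := red (P := P) (expandL (p ^ N) y)) fun m hm => by
      rw [coeff_red hΦ, rd_eq_zero_iff]
      show P.abv ((expandL (p ^ N) y).coeff m) < 1
      rw [dvd_of_coeff_expandL_ne hN _ hm, map_zero]
      exact one_pos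
    rw [hu] at h1
    have hs0 : red (P := P) s ≠ 0 := by
      intro h0
      rw [h0, zero_pow hp.out.ne_zero, mul_eq_zero, pow_eq_zero_iff hp.out.ne_zero] at h1
      rcases h1 with h2 | h2
      · refine hy0 (BAD.expandL_injective (p ^ N) ?_)
        rw [map_zero, ← red_expandL hy.serIn, hu, h2, zero_pow hp.out.ne_zero]
      · exact pow_ne_zero _ hy0 h2
    refine ⟨red y * u / red s, ?_⟩
    rw [div_pow, mul_pow, eq_div_iff (pow_ne_zero _ hs0), ← h1,
      show red (P := P) y * (u ^ p * red y ^ (p - 1)) = red y ^ (p - 1 + 1) * u ^ p by ring,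
      Nat.sub_add_cancel hp.out.one_le]
  intro Z τ hZ hQ hτ hτ1 hτ2 hle
  obtain ⟨s, hs, hsle⟩ := (show PowApprox K p _ _ from hQ)
  have hτ0 : 0 < τ := rp_pos.trans hτ
  set d := τ ^ p with hd
  have hd1 : d ≤ 1 := pow_le_one₀ hτ0.le hτ1.le
  have hd0 : 0 ≤ d := pow_nonneg hτ0.le p
  have hdd : d * d ≤ rp P ^ p := by
    rw [hd, ← mul_pow, ← pow_two, hτ2]
  set e := Z - 1 with he
  have hei : SerIn P.ring e := hle.serIn hd1
  have eZ : Z = 1 + e := by rw [he]; ring
  obtain ⟨q, hq⟩ := Polynomial.powAddExpansion (⟨1, SerIn.one⟩ : Curve.Red.serSub P.ring)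
    ⟨_, hei⟩ (p - 1)
  have hq' := congrArg Subtype.val hq
  push_cast at hq'
  simp only [one_pow, mul_one] at hq'
  have hX : P.SerLE (rp P ^ p)
      (expandL (p ^ N) Z * Z ^ (p - 1) - 1 - (expandL (p ^ N) e - e)) := by
    have hΦ : P.SerLE d (expandL (p ^ N) e) := BAD.serLE_expandL hd0 hle
    rw [eZ, map_add, map_one, hq', Nat.cast_sub hp.out.one_le, Nat.cast_one,
      show (1 + expandL (p ^ N) e) *
          (1 + ((p : LaurentSeries ℂ) - 1) * e + (q : LaurentSeries ℂ) * e ^ 2) - 1 -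
        (expandL (p ^ N) e - e) = (p : LaurentSeries ℂ) * e +
          (e * e * ((q : LaurentSeries ℂ) * (1 + expandL (p ^ N) e)) +
            expandL (p ^ N) e * e * ((p : LaurentSeries ℂ) - 1)) by ring]
    refine ((serLE_natCast_mul p hle).mono ?_).add ((((CPlace.SerLE.mul hd0 hd0 hle hle).mul_serIn
      (mul_nonneg hd0 hd0) (q.2.mul (SerIn.one.add (hΦ.serIn hd1)))).mono hdd).add
      (((CPlace.SerLE.mul hd0 hd0 hΦ hle).mul_serIn (mul_nonneg hd0 hd0)
        ((natCast_mem (Curve.Red.serSub P.ring) p : (p : LaurentSeries ℂ) ∈ _).sub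
          SerIn.one)).mono hdd))
    rw [← abv_p_mul_rp]
    refine mul_le_mul_of_nonneg_left ?_ (P.abv.nonneg _)
    exact (pow_le_pow_of_le_one hτ0.le hτ1.le hp.out.two_le).trans hτ2.le
  obtain ⟨hvle, hrel⟩ := serLE_root_rel hs hτ.le hτ1.le hτ2 hX
    (sub_eq_add_neg (expandL (p ^ N) e) e ▸ (BAD.serLE_expandL hd0 hle).add hle.neg) hsle
  obtain ⟨w, hw, hwle, hwe⟩ :=
    exists_powSer_root hN hτ hτ2.le (hs.sub Fine.one) hle hvle (e := e) hrel
  exact powApprox_of_powSer hw hτ2.le hτ0.le hwle hwe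

end FermatAgent.PSEMI
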