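import Fermat.Agent.PSEMI.Deep
import Fermat.Agent.BAD.Frob

/-!
# `p`-th powers of series

The coefficientwise substitute `powSer` for a `p`-th power, and bounds for `p`-th roots of series
close to `1`.
-/

set_option autoImplicit false

noncomputable section

namespace FermatAgent.PSEMI

open FermatAgent.ES FermatAgent.Curve.Red
open FermatAgent.BAD (expandL expandL_coeff_mul expandL_coeff_of_not_dvd expandL_serIn
  expandL_contractL)

variable {p : ℕ} [hp : Fact p.Prime] {P : CPlace p} {K : Coeffs P}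

/-- In characteristic `p` the `p`-th power is the expansion of the Frobenius twist. -/
theorem pow_char_expand {R : Type*} [CommRing R] [ExpChar R p] (s : LaurentSeries R) :
    s ^ p = expandL p (ES.liftSer (frobenius R p) s) := by
  obtain ⟨k, f, rfl⟩ : ∃ (k : ℤ) (f : PowerSeries R),
      s = HahnSeries.single k 1 * HahnSeries.ofPowerSeries ℤ R f :=
    ⟨s.order, s.powerSeriesPart, (LaurentSeries.single_order_mul_powerSeriesPart s).symm⟩
  have h1 : ES.liftSer (frobenius R p) (HahnSeries.single k (1 : R)) = HahnSeries.single k 1 := by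
    ext n
    rw [ES.coeff_liftSer, HahnSeries.coeff_single]
    split_ifs with h <;> simp
  rw [mul_pow, HahnSeries.single_pow, one_pow, ← map_pow, pow_char_series hp.out.ne_zero, map_mul,
    map_mul, h1, ES.liftSer_ofPowerSeries, BAD.expandL_single, BAD.expandL_ofPowerSeries,
    nsmul_eq_mul]
  congr 2
  exact PowerSeries.ext fun n => by rw [← PowerSeries.map_expand]

instance expChar_resField : ExpChar (ResField P) p := ExpChar.prime hp.out

omit hp in
/-- The residue field is perfect. -/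
theorem exists_root_res (K : Coeffs P) (x : ResField P) : ∃ y, y ^ p = x := by
  obtain ⟨n, hn, hx⟩ := K.resFix x
  exact ⟨x ^ p ^ (n - 1), by rw [← pow_mul, ← pow_succ, Nat.sub_add_cancel hn, hx]⟩

/-- Every residual series expanded by `p` is a `p`-th power. -/
theorem expand_pow_surj (K : Coeffs P) (x : LaurentSeries (ResField P)) :
    ∃ r, expandL p x = r ^ p := by
  choose g hg using exists_root_res K
  have hg0 : g 0 = 0 := eq_zero_of_pow_eq_zero (hg 0)
  refine ⟨x.map (⟨g, hg0⟩ : ZeroHom (ResField P) (ResField P)), ?_⟩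
  rw [pow_char_expand]
  congr 1
  ext m
  rw [ES.coeff_liftSer, frobenius_def]
  exact (hg _).symm

/-- Series supported on multiples of `p` are `p`-th powers. -/
theorem exists_pow_of_supp (K : Coeffs P) {x : LaurentSeries (ResField P)}
    (h : ∀ m : ℤ, ¬ (p : ℤ) ∣ m → x.coeff m = 0) : ∃ r, x = r ^ p := by
  rw [← expandL_contractL p h]
  exact expand_pow_surj K _

/-- In characteristic `p` a `p`-th power is supported on multiples of `p`. -/
theorem coeff_eq_zero_of_pow {R : Type*} [CommRing R] [ExpChar R p] (s : LaurentSeries R) {m : ℤ}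
    (hm : ¬ (p : ℤ) ∣ m) : (s ^ p).coeff m = 0 := by
  rw [pow_char_expand, expandL_coeff_of_not_dvd p _ hm]

section

omit hp

/-- Reduction commutes with expanding. -/
theorem red_expandL {q : ℕ} [NeZero q] {s : LaurentSeries ℂ} (hs : SerIn P.ring s) :
    red (P := P) (expandL q s) = expandL q (red s) := by
  ext m
  by_cases hm : (q : ℤ) ∣ m
  · obtain ⟨k, rfl⟩ := hm
    rw [coeff_red (expandL_serIn hs), expandL_coeff_mul q (red (P := P) s), coeff_red hs]
    exact congrArg _ (Subtype.ext (expandL_coeff_mul q s k))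
  · rw [coeff_red (expandL_serIn hs), expandL_coeff_of_not_dvd q (red (P := P) s) hm,
      rd_eq_zero_iff]
    show P.abv ((expandL q s).coeff m) < 1
    rw [expandL_coeff_of_not_dvd q _ hm, map_zero]
    exact one_pos

/-- Expanding preserves fine series. -/
theorem Fine.expandL {q : ℕ} [NeZero q] {s : LaurentSeries ℂ} (hs : Fine K s) :
    Fine K (BAD.expandL q s) := by
  obtain ⟨S, hS, h⟩ := hs
  exact ⟨S, hS, expandL_serIn h⟩

/-- A constant factor scales a bound by its absolute value. -/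
theorem serLE_C_mul {c : ℝ} {s : LaurentSeries ℂ} (a : ℂ) (hs : P.SerLE c s) :
    P.SerLE (P.abv a * c) (HahnSeries.C a * s) := fun m => by
  rw [HahnSeries.C_apply, HahnSeries.coeff_single_mul, sub_zero, map_mul]
  exact mul_le_mul_of_nonneg_left (hs m) (P.abv.nonneg a)

end

/-- The series `∑ s_k ^ p q ^ (p k)`. -/
def powSer (p : ℕ) [NeZero p] (s : LaurentSeries ℂ) : LaurentSeries ℂ :=
  expandL p (s.map (⟨fun x => x ^ p, zero_pow (NeZero.ne p)⟩ : ZeroHom ℂ ℂ))

omit hp in
/-- The coefficient of `powSer p s` at `p k` is `s_k ^ p`. -/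
theorem coeff_powSer_mul [NeZero p] (s : LaurentSeries ℂ) (k : ℤ) :
    (powSer p s).coeff ((p : ℤ) * k) = s.coeff k ^ p := by
  rw [powSer, expandL_coeff_mul]; rfl

omit hp in
/-- `powSer p s` is supported on multiples of `p`. -/
theorem coeff_powSer_of_not_dvd [NeZero p] (s : LaurentSeries ℂ) {m : ℤ} (hm : ¬ (p : ℤ) ∣ m) :
    (powSer p s).coeff m = 0 := by
  rw [powSer, expandL_coeff_of_not_dvd p _ hm]

theorem serLE_pow_sub_powSer_of_serIn {s : LaurentSeries ℂ} (hs : SerIn P.ring s) :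
    P.SerLE (P.abv p) (s ^ p - powSer p s) := by
  set t : LaurentSeries P.ring := ⟨fun m => ⟨s.coeff m, hs m⟩,
    s.isPWO_support.mono fun m hm h0 => hm (Subtype.ext h0)⟩
  set t' : LaurentSeries P.ring := t.map (⟨fun x => x ^ p, zero_pow hp.out.ne_zero⟩ : ZeroHom _ _)
  have e1 : ES.liftSer P.ring.subtype t = s := by ext m; rw [ES.coeff_liftSer]; rfl
  have e2 : ES.liftSer P.ring.subtype (expandL p t') = powSer p s := by
    rw [BAD.liftSer_expandL, powSer]
    congr 1
  have : ExpChar (P.ring ⧸ Ideal.span {(p : P.ring)}) p := ExpChar.prime hp.out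
  have h0 : ES.liftSer (BAD.redQ P) (t ^ p - expandL p t') = 0 := by
    rw [map_sub, map_pow, sub_eq_zero, pow_char_expand, BAD.liftSer_expandL]
    congr 1
  intro m
  have h1 := congrArg (fun u => u.coeff m) h0
  simp only [ES.coeff_liftSer, HahnSeries.coeff_zero, BAD.redQ] at h1
  rw [Ideal.Quotient.eq_zero_iff_mem, Ideal.mem_span_singleton'] at h1
  obtain ⟨b, hb⟩ := h1
  rw [← e2, ← e1, ← map_pow, ← map_sub, ES.coeff_liftSer, ← hb, Subring.coe_subtype,
    Subring.coe_mul, map_mul, Subring.coe_natCast]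
  exact mul_le_of_le_one_left (P.abv.nonneg _) b.2

theorem powSer_C_mul (a : ℂ) (s : LaurentSeries ℂ) :
    powSer p (HahnSeries.C a * s) = HahnSeries.C (a ^ p) * powSer p s := by
  ext m
  rw [HahnSeries.C_apply, HahnSeries.C_apply, HahnSeries.coeff_single_mul, sub_zero]
  by_cases hm : (p : ℤ) ∣ m
  · obtain ⟨k, rfl⟩ := hm
    rw [coeff_powSer_mul, coeff_powSer_mul, HahnSeries.coeff_single_mul, sub_zero, mul_pow]
  · rw [coeff_powSer_of_not_dvd _ hm, coeff_powSer_of_not_dvd _ hm, mul_zero]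

omit hp in
/-- A series with bounded coefficients, scaled by a largest coefficient. -/
theorem Fine.exists_scaled {τ : ℝ} {s : LaurentSeries ℂ} (hs : Fine K s) (hτ : 0 ≤ τ)
    (h : P.SerLE τ s) : ∃ (c : ℂ) (s' : LaurentSeries ℂ), P.abv c ≤ τ ∧ SerIn P.ring s' ∧
      s = HahnSeries.C c * s' ∧ (s ≠ 0 → P.UnitCoeff s') := by
  rcases eq_or_ne s 0 with rfl | h0
  · exact ⟨0, 0, by simpa using hτ, SerIn.zero, by simp, fun h => absurd rfl h⟩
  obtain ⟨S, hS, hin⟩ := hs
  obtain ⟨c, -, -, s', hs', hu, e, -⟩ := exists_content (K.isCDVR hS) hin h0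
  obtain ⟨n, hn⟩ := hu
  refine ⟨c, s', ?_, serIn_mono hs' (K.isCDVR hS).le, e, fun _ => ⟨n, hn⟩⟩
  have := h n
  rwa [e, HahnSeries.C_apply, HahnSeries.coeff_single_mul, sub_zero, map_mul, hn, mul_one] at this

/-- `s ^ p` and `powSer p s` differ by at most `|p| τ ^ p` for a series bounded by `τ`. -/
theorem serLE_pow_sub_powSer {τ : ℝ} {s : LaurentSeries ℂ} (hs : Fine K s) (hτ : 0 ≤ τ)
    (h : P.SerLE τ s) : P.SerLE (P.abv p * τ ^ p) (s ^ p - powSer p s) := by
  obtain ⟨c, s', hc, hs', rfl, -⟩ := hs.exists_scaled hτ h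
  rw [mul_pow, powSer_C_mul, ← map_pow, ← mul_sub]
  refine (serLE_C_mul (c ^ p) (serLE_pow_sub_powSer_of_serIn hs')).mono ?_
  rw [map_pow, mul_comm (P.abv (p : ℂ))]
  exact mul_le_mul_of_nonneg_right (pow_le_pow_left₀ (P.abv.nonneg _) hc p) (P.abv.nonneg _)

/-- The binomial expansion at `1`. -/
theorem exists_binom_one {t : LaurentSeries ℂ} (ht : SerIn P.ring t) :
    ∃ q, SerIn P.ring q ∧
      (1 + t) ^ p = 1 + t ^ p + (p : LaurentSeries ℂ) * t + (p : LaurentSeries ℂ) * t ^ 2 * q := by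
  obtain ⟨r, hr, e⟩ := exists_binom_two_ser (p := p) (SerIn.one (A := P.ring)) ht
  exact ⟨r, hr, by rw [e]; ring⟩

/-- The bound for a root close to `1`. -/
theorem serLE_of_pow_sub_one {τ : ℝ} {h : LaurentSeries ℂ} (hh : Fine K h) (hτ : rp P ≤ τ)
    (hle : P.SerLE (τ ^ p) ((1 + h) ^ p - 1)) : P.SerLE τ h := by
  have hτ0 : 0 ≤ τ := rp_nonneg.trans hτ
  rcases eq_or_ne h 0 with rfl | h0
  · exact CPlace.SerLE.zero hτ0
  obtain ⟨c, h', -, hh', e, hu⟩ := hh.exists_scaled zero_le_one hh.serIn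
  intro m
  refine le_trans ?_ (le_refl τ)
  rw [e, HahnSeries.C_apply, HahnSeries.coeff_single_mul, sub_zero, map_mul]
  refine (mul_le_of_le_one_right (P.abv.nonneg c) (hh' m)).trans ?_
  by_contra hlt
  push Not at hlt
  obtain ⟨q, hq, hqe⟩ := exists_binom (SerIn.one (A := P.ring)) hh.serIn
  obtain ⟨n, hn⟩ := CPlace.UnitCoeff.pow hh' (hu h0) p
  have h1 := hle n
  rw [hqe, one_pow, mul_one, add_assoc, add_sub_cancel_left, HahnSeries.coeff_add] at h1
  have h2 : P.abv ((h ^ p).coeff n) = P.abv c ^ p := by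
    rw [e, mul_pow, ← map_pow, HahnSeries.C_apply, HahnSeries.coeff_single_mul, sub_zero, map_mul,
      hn, mul_one, map_pow]
  have h3 : P.abv (((p : LaurentSeries ℂ) * h * q).coeff n) < P.abv c ^ p := by
    refine lt_of_le_of_lt ?_ (abv_p_mul_lt_pow (lt_of_le_of_lt hτ hlt))
    rw [mul_assoc]
    refine serLE_natCast_mul p (CPlace.SerLE.mul_serIn (P.abv.nonneg c) ?_ hq) n
    rw [e]
    simpa using serLE_C_mul c (P.serLE_one_iff.mpr hh')
  refine absurd h1 (not_le.mpr ?_)
  refine lt_of_lt_of_le (pow_lt_pow_left₀ hlt hτ0 hp.out.ne_zero) ?_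
  rw [← h2]
  calc P.abv ((h ^ p).coeff n)
      = P.abv ((h ^ p).coeff n + ((p : LaurentSeries ℂ) * h * q).coeff n +
          -((p : LaurentSeries ℂ) * h * q).coeff n) := by rw [add_neg_cancel_right]
    _ ≤ max (P.abv ((h ^ p).coeff n + ((p : LaurentSeries ℂ) * h * q).coeff n))
          (P.abv (-((p : LaurentSeries ℂ) * h * q).coeff n)) := P.nonarch _ _
    _ ≤ _ := by
        refine max_le le_rfl ?_
        rw [AbsoluteValue.map_neg]
        by_contra h4
        push Not at h4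
        have := P.nonarch ((h ^ p).coeff n + ((p : LaurentSeries ℂ) * h * q).coeff n)
          (-((p : LaurentSeries ℂ) * h * q).coeff n)
        rw [add_neg_cancel_right, AbsoluteValue.map_neg, max_eq_right h4.le, h2] at this
        exact this.not_gt h3

/-- A root of a series close to `1` is close to `1`. -/
theorem serLE_sub_one_of_pow {τ : ℝ} {s : LaurentSeries ℂ} (hs : Fine K s) (hτ : rp P ≤ τ)
    (hle : P.SerLE (τ ^ p) (s ^ p - 1)) : P.SerLE τ (s - 1) := by
  refine serLE_of_pow_sub_one (hs.sub Fine.one) hτ ?_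
  rwa [add_sub_cancel]

/-- If `A` is both `1 + E` and a `p`-th power `s ^ p` to within `|ζ - 1| ^ p`, then `s - 1` is
small and its twisted power carries `E`. -/
theorem serLE_root_rel {A E s : LaurentSeries ℂ} (hs : Fine K s) {τ : ℝ} (hτ : rp P ≤ τ)
    (hτ1 : τ ≤ 1) (hτ2 : τ ^ 2 = rp P) (hX : P.SerLE (rp P ^ p) (A - 1 - E))
    (hE : P.SerLE (τ ^ p) E) (hsle : P.SerLE (rp P ^ p) (A - s ^ p)) :
    P.SerLE τ (s - 1) ∧
      P.SerLE (rp P ^ p) (E - powSer p (s - 1) - (p : LaurentSeries ℂ) * (s - 1)) := by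
  have hτ0 : 0 ≤ τ := rp_nonneg.trans hτ
  have hRd : rp P ^ p ≤ τ ^ p := pow_le_pow_left₀ rp_nonneg hτ p
  have hvle : P.SerLE τ (s - 1) := serLE_sub_one_of_pow hs hτ (by
    rw [show s ^ p - 1 = (A - 1 - E) + E + -(A - s ^ p) by ring]
    exact ((hX.mono hRd).add hE).add ((hsle.mono hRd).neg))
  obtain ⟨q, hq, hqe⟩ := exists_binom_one (hvle.serIn hτ1)
  rw [add_sub_cancel] at hqe
  refine ⟨hvle, ?_⟩
  rw [show E - powSer p (s - 1) - (p : LaurentSeries ℂ) * (s - 1) =
    -(A - 1 - E) + (A - s ^ p) + ((s - 1) ^ p - powSer p (s - 1)) +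
      (p : LaurentSeries ℂ) * ((s - 1) ^ 2 * q) by rw [hqe]; ring]
  refine ((hX.neg.add hsle).add ((serLE_pow_sub_powSer (hs.sub Fine.one) hτ0 hvle).mono ?_)).add
    ((serLE_natCast_mul p ((pow_two (s - 1) ▸ CPlace.SerLE.mul hτ0 hτ0 hvle hvle).mul_serIn
      (mul_nonneg hτ0 hτ0) hq)).mono ?_)
  · rw [← abv_p_mul_rp]
    exact mul_le_mul_of_nonneg_left
      ((pow_le_pow_of_le_one hτ0 hτ1 hp.out.two_le).trans hτ2.le) (P.abv.nonneg _)
  · rw [← abv_p_mul_rp, ← pow_two, hτ2]

/-- **Reading off a root.** -/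
theorem powApprox_of_powSer {Z w : LaurentSeries ℂ} (hw : Fine K w) {τ : ℝ}
    (hτ : τ ^ 2 ≤ rp P) (hτ0 : 0 ≤ τ) (hwle : P.SerLE τ w)
    (h : P.SerLE (rp P ^ p) (Z - 1 - powSer p w - (p : LaurentSeries ℂ) * w)) :
    PowApprox K p (rp P ^ p) Z := by
  have hτ1 : τ ≤ 1 := by
    by_contra h1
    push Not at h1
    nlinarith [rp_lt_one (P := P)]
  have hw1 : SerIn P.ring w := hwle.serIn hτ1
  obtain ⟨q, hq, hqe⟩ := exists_binom_one hw1
  refine ⟨1 + w, Fine.one.add hw, ?_⟩
  rw [hqe, show Z - (1 + w ^ p + (p : LaurentSeries ℂ) * w + (p : LaurentSeries ℂ) * w ^ 2 * q) =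
    (Z - 1 - powSer p w - (p : LaurentSeries ℂ) * w) + -(w ^ p - powSer p w) +
      -((p : LaurentSeries ℂ) * (w ^ 2 * q)) by ring]
  have hw2 : P.SerLE (τ ^ 2) (w ^ 2 * q) := by
    rw [pow_two, pow_two]
    exact (CPlace.SerLE.mul hτ0 hτ0 hwle hwle).mul_serIn (mul_nonneg hτ0 hτ0) hq
  refine (h.add ((serLE_pow_sub_powSer hw hτ0 hwle).mono ?_).neg).add
    ((serLE_natCast_mul p hw2).mono ?_).neg
  · rw [← abv_p_mul_rp]
    refine mul_le_mul_of_nonneg_left ?_ (P.abv.nonneg _)
    exact (pow_le_pow_of_le_one hτ0 hτ1 hp.out.two_le).trans hτ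
  · rw [← abv_p_mul_rp]
    exact mul_le_mul_of_nonneg_left hτ (P.abv.nonneg _)

end FermatAgent.PSEMI
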